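import Mathlib

/-!
# Kummer extensions of degree `p` and the differential inequality

Abstract setting: a field `Ω` with a valuation `v`, a group `G` acting on `Ω` and preserving `v`,
with fixed field `K`; `π ∈ K` is a uniformizer of `K`, `v p = v π ^ ((p-1) m)`, and `K` contains a
primitive `p`-th root of unity `ζ`.
-/

set_option autoImplicit false

open Polynomial

namespace Fermat.Agent.TWP.Flat.Kummer

section zeta

variable {Ω : Type} [Field Ω] {Γ : Type} [LinearOrderedCommGroupWithZero Γ] (v : Valuation Ω Γ)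

theorem v_root {n : ℕ} (hn : n ≠ 0) {ζ : Ω} (h : ζ ^ n = 1) : v ζ = 1 := by
  have h1 : v ζ ^ n = 1 := by rw [← map_pow, h, map_one]
  rcases lt_trichotomy (v ζ) 1 with h2 | h2 | h2
  · exact absurd h1 (pow_lt_one₀ zero_le h2 hn).ne
  · exact h2
  · exact absurd h1 (one_lt_pow₀ h2 hn).ne'

theorem pow_inj_of_ne_zero {n : ℕ} (hn : n ≠ 0) {a b : Γ} (h : a ^ n = b ^ n) : a = b := by
  rcases lt_trichotomy a b with h2 | h2 | h2
  · exact absurd h (pow_lt_pow_left₀ h2 zero_le hn).ne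
  · exact h2
  · exact absurd h (pow_lt_pow_left₀ h2 zero_le hn).ne'

/-- `v (ζ - 1) ^ (p-1) = v p`. -/
theorem v_zeta_sub_one {p : ℕ} [hp : Fact p.Prime] {ζ : Ω} (hζ : IsPrimitiveRoot ζ p) :
    v (ζ - 1) ^ (p - 1) = v (p : Ω) := by
  have h0 : (Polynomial.cyclotomic p Ω).eval 1 = (p : Ω) := eval_one_cyclotomic_prime
  rw [← h0, cyclotomic_eq_prod_X_sub_primitiveRoots hζ, eval_prod, map_prod]
  have h1 : ∀ μ ∈ primitiveRoots p Ω, v (eval 1 (X - C μ)) = v (ζ - 1) := by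
    intro μ hμ
    rw [eval_sub, eval_X, eval_C, Valuation.map_sub_swap]
    rw [mem_primitiveRoots hp.out.pos] at hμ
    have key : ∀ a b : Ω, IsPrimitiveRoot a p → IsPrimitiveRoot b p → v (a - 1) ≤ v (b - 1) := by
      intro a b ha hb
      obtain ⟨i, -, rfl⟩ := hb.eq_pow_of_pow_eq_one ha.pow_eq_one
      rw [← mul_geom_sum b i, map_mul]
      refine mul_le_of_le_one_right' ?_
      refine v.map_sum_le fun j _ => ?_
      rw [map_pow, v_root v hp.out.ne_zero hb.pow_eq_one, one_pow]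
    exact le_antisymm (key _ _ hμ hζ) (key _ _ hζ hμ)
  rw [Finset.prod_congr rfl h1, Finset.prod_const, hζ.card_primitiveRoots, Nat.totient_prime hp.out]

theorem v_zeta_pow_sub_one {p : ℕ} [hp : Fact p.Prime] {ζ : Ω} (hζ : IsPrimitiveRoot ζ p) (i : ℕ) :
    v (ζ ^ i - 1) ≤ v (ζ - 1) := by
  rw [← mul_geom_sum ζ i, map_mul]
  refine mul_le_of_le_one_right' ?_
  refine v.map_sum_le fun j _ => ?_
  rw [map_pow, v_root v hp.out.ne_zero hζ.pow_eq_one, one_pow]

theorem v_zeta_pow_sub_one' {p : ℕ} [hp : Fact p.Prime] {ζ : Ω} (hζ : IsPrimitiveRoot ζ p) (i : ℕ)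
    (hi : ¬ p ∣ i) : v (ζ ^ i - 1) = v (ζ - 1) := by
  have h1 : IsPrimitiveRoot (ζ ^ i) p := hζ.pow_of_coprime i
    ((Nat.Prime.coprime_iff_not_dvd hp.out).mpr hi).symm
  refine pow_inj_of_ne_zero (n := p - 1) (by have := hp.out.two_le; omega) ?_
  rw [v_zeta_sub_one v h1, v_zeta_sub_one v hζ]

/-- Factorisation `x ^ p - 1 = ∏ (x - ζ ^ j)`. -/
theorem prod_sub_pow {p : ℕ} [hp : Fact p.Prime] {ζ : Ω} (hζ : IsPrimitiveRoot ζ p) (x : Ω) :
    x ^ p - 1 = ∏ j ∈ Finset.range p, (x - ζ ^ j) := by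
  have h := X_pow_sub_one_eq_prod hp.out.pos hζ
  have h2 := congrArg (eval x) h
  rw [eval_sub, eval_pow, eval_X, eval_one, eval_prod] at h2
  rw [h2]
  simp only [eval_sub, eval_X, eval_C]
  symm
  refine Finset.prod_bij (fun j _ => ζ ^ j) ?_ ?_ ?_ ?_
  · intro j _
    rw [mem_nthRootsFinset hp.out.pos, ← pow_mul, mul_comm, pow_mul, hζ.pow_eq_one, one_pow]
  · intro i hi j hj hij
    exact hζ.pow_inj (Finset.mem_range.mp hi) (Finset.mem_range.mp hj) hij
  · intro y hy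
    rw [mem_nthRootsFinset hp.out.pos] at hy
    obtain ⟨i, hi, rfl⟩ := hζ.eq_pow_of_pow_eq_one hy
    exact ⟨i, Finset.mem_range.mpr hi, rfl⟩
  · intro j _
    rfl

/-- If `v (β ^ p - 1) > v (ζ - 1) ^ p` then `v (β - 1) ^ p = v (β ^ p - 1)`. -/
theorem v_sub_one_pow {p : ℕ} [hp : Fact p.Prime] {ζ : Ω} (hζ : IsPrimitiveRoot ζ p) (β : Ω)
    (h : v (ζ - 1) ^ p < v (β ^ p - 1)) : v (β - 1) ^ p = v (β ^ p - 1) := by
  rw [prod_sub_pow hζ, map_prod] at h ⊢
  have hlt : v (ζ - 1) < v (β - 1) := by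
    by_contra hle
    rw [not_lt] at hle
    refine absurd h (not_lt.mpr ?_)
    calc ∏ j ∈ Finset.range p, v (β - ζ ^ j) ≤ ∏ j ∈ Finset.range p, v (ζ - 1) := by
          refine Finset.prod_le_prod' fun j _ => ?_
          have : β - ζ ^ j = (β - 1) - (ζ ^ j - 1) := by ring
          rw [this]
          exact (v.map_sub _ _).trans (max_le hle (v_zeta_pow_sub_one v hζ j))
      _ = v (ζ - 1) ^ p := by rw [Finset.prod_const, Finset.card_range]
  symm
  calc ∏ j ∈ Finset.range p, v (β - ζ ^ j) = ∏ j ∈ Finset.range p, v (β - 1) := by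
        refine Finset.prod_congr rfl fun j _ => ?_
        have : β - ζ ^ j = (β - 1) - (ζ ^ j - 1) := by ring
        rw [this, Valuation.map_sub_eq_of_lt_left]
        exact (v_zeta_pow_sub_one v hζ j).trans_lt hlt
    _ = v (β - 1) ^ p := by rw [Finset.prod_const, Finset.card_range]

/-- If `v (β ^ p - 1) ≤ v (ζ - 1) ^ p` then `v (β - 1) ≤ v (ζ - 1)`. -/
theorem v_sub_one_le {p : ℕ} [hp : Fact p.Prime] {ζ : Ω} (hζ : IsPrimitiveRoot ζ p) (β : Ω)
    (h : v (β ^ p - 1) ≤ v (ζ - 1) ^ p) : v (β - 1) ≤ v (ζ - 1) := by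
  by_contra hlt
  rw [not_le] at hlt
  rw [prod_sub_pow hζ, map_prod] at h
  have h2 : ∏ j ∈ Finset.range p, v (β - ζ ^ j) = v (β - 1) ^ p := by
    calc ∏ j ∈ Finset.range p, v (β - ζ ^ j) = ∏ j ∈ Finset.range p, v (β - 1) := by
          refine Finset.prod_congr rfl fun j _ => ?_
          have : β - ζ ^ j = (β - 1) - (ζ ^ j - 1) := by ring
          rw [this, Valuation.map_sub_eq_of_lt_left]
          exact (v_zeta_pow_sub_one v hζ j).trans_lt hlt
      _ = v (β - 1) ^ p := by rw [Finset.prod_const, Finset.card_range]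
  rw [h2] at h
  exact absurd h (not_le.mpr (pow_lt_pow_left₀ hlt zero_le hp.out.ne_zero))

end zeta

/-- The standing hypotheses: `G` acts on `Ω` preserving `v`, trivially on the residue field; the
fixed field `K` has uniformizer `π`, full residue field, `v p = v π ^ ((p-1) m)` and contains a
primitive `p`-th root of unity `ζ`. -/
structure Data {Ω : Type} [Field Ω] {Γ : Type} [LinearOrderedCommGroupWithZero Γ]
    (v : Valuation Ω Γ) (G : Type) [Group G] [MulSemiringAction G Ω] (p m : ℕ) (π ζ : Ω) :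
    Prop where
  hp : p.Prime
  hm : 0 < m
  inv : ∀ (g : G) (x : Ω), v (g • x) = v x
  triv : ∀ (g : G) (x : Ω), v x ≤ 1 → v (g • x - x) < 1
  fixπ : ∀ g : G, g • π = π
  π0 : v π ≠ 0
  π1 : v π < 1
  disc : ∀ x : Ω, (∀ g : G, g • x = x) → x ≠ 0 → ∃ n : ℤ, v x = v π ^ n
  vp : v (p : Ω) = v π ^ ((p - 1) * m)
  prim : IsPrimitiveRoot ζ p
  fixζ : ∀ g : G, g • ζ = ζ
  res : ∀ x : Ω, v x ≤ 1 → ∃ y : Ω, (∀ g : G, g • y = y) ∧ v (x - y) < 1

/-- `α ∈ K^*` is a Kummer generator for `f : G → ℤ/p`. -/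
def IsGen {Ω : Type} [Field Ω] (G : Type) [Group G] [MulSemiringAction G Ω] {p : ℕ} (ζ : Ω)
    (f : G → ZMod p) (α : Ω) : Prop :=
  (∀ g : G, g • α = α) ∧ α ≠ 0 ∧ ∃ β : Ω, β ^ p = α ∧ ∀ g : G, g • β = ζ ^ (f g).val * β

section main

variable {Ω : Type} [Field Ω] {Γ : Type} [LinearOrderedCommGroupWithZero Γ]
  {v : Valuation Ω Γ} {G : Type} [Group G] [MulSemiringAction G Ω] {p m : ℕ} {π ζ : Ω}

namespace Data

theorem v_zeta (D : Data v G p m π ζ) : v (ζ - 1) = v π ^ m := by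
  have : Fact p.Prime := ⟨D.hp⟩
  refine pow_inj_of_ne_zero (n := p - 1) (by have := D.hp.two_le; omega) ?_
  rw [v_zeta_sub_one v D.prim, D.vp, ← pow_mul, mul_comm]

theorem vpos (D : Data v G p m π ζ) : 0 < v π := zero_lt_iff.mpr D.π0

theorem zpow_lt (D : Data v G p m π ζ) {a b : ℤ} : v π ^ a < v π ^ b ↔ b < a :=
  (zpow_right_strictAnti₀ D.vpos D.π1).lt_iff_gt

theorem zpow_le (D : Data v G p m π ζ) {a b : ℤ} : v π ^ a ≤ v π ^ b ↔ b ≤ a :=
  (zpow_right_strictAnti₀ D.vpos D.π1).le_iff_ge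

theorem zpow_inj (D : Data v G p m π ζ) {a b : ℤ} : v π ^ a = v π ^ b ↔ a = b :=
  (zpow_right_strictAnti₀ D.vpos D.π1).injective.eq_iff

theorem pow_lt (D : Data v G p m π ζ) {a b : ℕ} : v π ^ a < v π ^ b ↔ b < a := by
  rw [← zpow_natCast, ← zpow_natCast, D.zpow_lt]; exact Nat.cast_lt

theorem pow_le (D : Data v G p m π ζ) {a b : ℕ} : v π ^ a ≤ v π ^ b ↔ b ≤ a := by
  rw [← zpow_natCast, ← zpow_natCast, D.zpow_le]; exact Nat.cast_le

theorem pow_inj (D : Data v G p m π ζ) {a b : ℕ} : v π ^ a = v π ^ b ↔ a = b := by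
  rw [← zpow_natCast, ← zpow_natCast, D.zpow_inj]; exact Nat.cast_inj

/-- Valuations of the monomials `a z ^ i`. -/
theorem v_monomial (D : Data v G p m π ζ) {z : Ω} {s : ℤ} (hz : v z ^ p = v π ^ s)
    {a : Ω} (ha : ∀ g : G, g • a = a) (ha0 : a ≠ 0) (i : ℕ) :
    ∃ n : ℤ, v (a * z ^ i) ^ p = v π ^ (n * p + i * s) := by
  obtain ⟨n, hn⟩ := D.disc a ha ha0
  refine ⟨n, ?_⟩
  rw [map_mul, map_pow, mul_pow, ← pow_mul, mul_comm i p, pow_mul, hz, hn,
    zpow_add₀ D.π0, zpow_mul, zpow_natCast, mul_comm (i : ℤ) s, zpow_mul, zpow_natCast]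

theorem z_ne_zero (D : Data v G p m π ζ) {z : Ω} {s : ℤ} (hz : v z ^ p = v π ^ s) : z ≠ 0 := by
  rintro rfl
  rw [map_zero, zero_pow D.hp.ne_zero] at hz
  exact zpow_ne_zero _ D.π0 hz.symm

theorem monomial_ne (D : Data v G p m π ζ) {z : Ω} {s : ℤ} (hz : v z ^ p = v π ^ s)
    (hs : ¬ (p : ℤ) ∣ s) {a b : Ω} (ha : ∀ g : G, g • a = a) (hb : ∀ g : G, g • b = b)
    (ha0 : a ≠ 0) {i j : ℕ} (hi : i < p) (hj : j < p) (hij : i ≠ j) :
    v (a * z ^ i) ≠ v (b * z ^ j) := by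
  intro h
  have hz0 : z ≠ 0 := D.z_ne_zero hz
  have hb0 : b ≠ 0 := by
    rintro rfl
    rw [zero_mul, map_zero, map_eq_zero] at h
    exact mul_ne_zero ha0 (pow_ne_zero _ hz0) h
  obtain ⟨n, hn⟩ := D.v_monomial hz ha ha0 i
  obtain ⟨k, hk⟩ := D.v_monomial hz hb hb0 j
  rw [h, hk, D.zpow_inj] at hn
  have h1 : (p : ℤ) ∣ ((i : ℤ) - j) * s := ⟨k - n, by linear_combination -hn⟩
  rcases (Nat.prime_iff_prime_int.mp D.hp).dvd_or_dvd h1 with h2 | h2
  · obtain ⟨c, hc⟩ := h2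
    have h3 : |(i : ℤ) - j| < p := by rw [abs_lt]; constructor <;> omega
    have h4 := Int.eq_zero_of_abs_lt_dvd ⟨c, hc⟩ h3
    omega
  · exact hs h2

/-- The valuation of `∑ b_i z^i` (`i < p`, `b_i ∈ K`) bounds the valuations of all terms. -/
theorem v_term_le (D : Data v G p m π ζ) {z : Ω} {s : ℤ} (hz : v z ^ p = v π ^ s)
    (hs : ¬ (p : ℤ) ∣ s) (b : ℕ → Ω) (hb : ∀ i, ∀ g : G, g • b i = b i) {i : ℕ} (hi : i < p) :
    v (b i * z ^ i) ≤ v (∑ j ∈ Finset.range p, b j * z ^ j) := by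
  classical
  obtain ⟨j, hj, hmax⟩ := Finset.exists_max_image (Finset.range p) (fun j => v (b j * z ^ j))
    ⟨i, Finset.mem_range.mpr hi⟩
  have h1 := hmax i (Finset.mem_range.mpr hi)
  by_cases h0 : b j = 0
  · simp only [h0, zero_mul, map_zero, nonpos_iff_eq_zero] at h1
    rw [h1]; exact zero_le
  rw [v.map_sum_eq_of_lt hj]
  · exact h1
  · intro k hk
    rw [Finset.mem_sdiff, Finset.mem_singleton] at hk
    exact lt_of_le_of_ne (hmax k hk.1) (D.monomial_ne hz hs (hb j) (hb k) h0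
      (Finset.mem_range.mp hj) (Finset.mem_range.mp hk.1) (Ne.symm hk.2)).symm

/-- Integral monomials `a z ^ i` with `0 < i < p` have valuation at most `v π ^ (1/p)`. -/
theorem v_monomial_le (D : Data v G p m π ζ) {z : Ω} {s : ℤ} (hz : v z ^ p = v π ^ s)
    (hs : ¬ (p : ℤ) ∣ s) {a : Ω} (ha : ∀ g : G, g • a = a) {i : ℕ} (hi0 : i ≠ 0) (hi : i < p)
    (h : v (a * z ^ i) ≤ 1) : v (a * z ^ i) ^ p ≤ v π := by
  by_cases ha0 : a = 0
  · rw [ha0, zero_mul, map_zero, zero_pow D.hp.ne_zero]; exact zero_le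
  obtain ⟨n, hn⟩ := D.v_monomial hz ha ha0 i
  have h1 : v (a * z ^ i) ^ p ≤ 1 := pow_le_one₀ zero_le h
  rw [hn] at h1 ⊢
  have h2 : v π ^ (n * p + i * s) ≤ v π ^ (0 : ℤ) := by rwa [zpow_zero]
  rw [D.zpow_le] at h2
  have h3 : n * p + i * s ≠ 0 := by
    intro h3
    have h4 : (p : ℤ) ∣ (i : ℤ) * s := ⟨-n, by linear_combination h3⟩
    rcases (Nat.prime_iff_prime_int.mp D.hp).dvd_or_dvd h4 with h5 | h5
    · rw [Int.natCast_dvd_natCast] at h5
      exact absurd (Nat.le_of_dvd (Nat.pos_of_ne_zero hi0) h5) (not_le.mpr hi)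
    · exact hs h5
  calc v π ^ (n * p + i * s) ≤ v π ^ (1 : ℤ) := D.zpow_le.mpr (by omega)
    _ = v π := zpow_one _

end Data

section decomp

variable {f : G → ZMod p} {β : Ω}

theorem chi_add [Fact p.Prime] (hζ : IsPrimitiveRoot ζ p) (a b : ZMod p) :
    ζ ^ (a + b).val = ζ ^ a.val * ζ ^ b.val := by
  have h := (AddChar.zmodChar p hζ.pow_eq_one).map_add_eq_mul a b
  simpa only [AddChar.zmodChar_apply] using h

theorem chi_inj [Fact p.Prime] (hζ : IsPrimitiveRoot ζ p) {a b : ZMod p}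
    (h : ζ ^ a.val = ζ ^ b.val) : a = b :=
  ZMod.val_injective p (hζ.pow_inj (ZMod.val_lt a) (ZMod.val_lt b) h)

theorem gen_mul [Fact p.Prime] (hζ : IsPrimitiveRoot ζ p) (hfix : ∀ g : G, g • ζ = ζ)
    (hβ0 : β ≠ 0) (hβ : ∀ g : G, g • β = ζ ^ (f g).val * β) (g h : G) :
    f (g * h) = f g + f h := by
  apply chi_inj hζ
  have h1 := hβ (g * h)
  rw [mul_smul, hβ h, smul_mul', smul_pow', hfix, hβ g] at h1
  rw [chi_add hζ]
  apply mul_right_cancel₀ hβ0
  rw [← h1]; ring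

theorem gen_one [Fact p.Prime] (hζ : IsPrimitiveRoot ζ p) (hfix : ∀ g : G, g • ζ = ζ)
    (hβ0 : β ≠ 0) (hβ : ∀ g : G, g • β = ζ ^ (f g).val * β) : f 1 = 0 := by
  have h := gen_mul hζ hfix hβ0 hβ 1 1
  rw [mul_one] at h
  exact left_eq_add.mp h

theorem gen_pow [Fact p.Prime] (hζ : IsPrimitiveRoot ζ p) (hfix : ∀ g : G, g • ζ = ζ)
    (hβ0 : β ≠ 0) (hβ : ∀ g : G, g • β = ζ ^ (f g).val * β) (g : G) (n : ℕ) :
    f (g ^ n) = n * f g := by
  induction n with
  | zero => rw [pow_zero, gen_one hζ hfix hβ0 hβ]; simp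
  | succ n ih => rw [pow_succ, gen_mul hζ hfix hβ0 hβ, ih]; push_cast; ring

theorem gen_inv [Fact p.Prime] (hζ : IsPrimitiveRoot ζ p) (hfix : ∀ g : G, g • ζ = ζ)
    (hβ0 : β ≠ 0) (hβ : ∀ g : G, g • β = ζ ^ (f g).val * β) (g : G) :
    f g⁻¹ = - f g := by
  have h := gen_mul hζ hfix hβ0 hβ g g⁻¹
  rw [mul_inv_cancel, gen_one hζ hfix hβ0 hβ] at h
  exact (neg_eq_of_add_eq_zero_right h.symm).symm

/-- Elements fixed by `ker f` are polynomials of degree `< p` in `β` over the fixed field. -/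
theorem exists_decomp [Fact p.Prime] (hζ : IsPrimitiveRoot ζ p) (hp0 : (p : Ω) ≠ 0)
    (hfix : ∀ g : G, g • ζ = ζ)
    (hβ0 : β ≠ 0) (hβ : ∀ g : G, g • β = ζ ^ (f g).val * β) {σ : G} (hσ : f σ ≠ 0)
    {t : Ω} (ht : ∀ h : G, f h = 0 → h • t = t) :
    ∃ a : ℕ → Ω, (∀ i, ∀ g : G, g • a i = a i) ∧ t = ∑ i ∈ Finset.range p, a i * β ^ i := by
  classical
  -- normalise `σ`
  obtain ⟨σ, hσ⟩ : ∃ σ : G, f σ = 1 := by
    refine ⟨σ ^ ((f σ)⁻¹).val, ?_⟩
    rw [gen_pow hζ hfix hβ0 hβ, ZMod.natCast_val, ZMod.cast_id, inv_mul_cancel₀ hσ]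
  have hpow : ∀ n : ℕ, f (σ ^ n) = n := fun n => by
    rw [gen_pow hζ hfix hβ0 hβ, hσ, mul_one]
  -- the conjugates of `t`
  have hT : ∀ g h : G, f g = f h → g • t = h • t := by
    intro g h hgh
    have h1 : (h⁻¹ * g) • t = t := ht _ (by
      rw [gen_mul hζ hfix hβ0 hβ, gen_inv hζ hfix hβ0 hβ, hgh, neg_add_cancel])
    rwa [mul_smul, inv_smul_eq_iff] at h1
  let T : ZMod p → Ω := fun j => (σ ^ j.val) • t
  have hTg : ∀ (g : G) (j : ZMod p), g • T j = T (f g + j) := by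
    intro g j
    change g • (σ ^ j.val) • t = (σ ^ (f g + j).val) • t
    rw [← mul_smul]
    apply hT
    rw [gen_mul hζ hfix hβ0 hβ, hpow, hpow, ZMod.natCast_val, ZMod.natCast_val, ZMod.cast_id,
      ZMod.cast_id]
  let A : ℕ → Ω := fun i => (p : Ω)⁻¹ * (∑ j : ZMod p, ζ ^ (-((i : ZMod p) * j)).val * T j) *
    (β ^ i)⁻¹
  have hpfix : ∀ g : G, g • (p : Ω) = p := fun g =>
    map_natCast (MulSemiringAction.toRingHom G Ω g) p
  have hinv : ∀ (g : G) (x : Ω), g • x⁻¹ = (g • x)⁻¹ := fun g x =>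
    map_inv₀ (MulSemiringAction.toRingHom G Ω g) x
  have hchi0 : ζ ^ (0 : ZMod p).val = 1 := by simp
  have hpow2 : ∀ (i : ℕ) (a : ZMod p), (ζ ^ a.val) ^ i = ζ ^ ((i : ZMod p) * a).val := by
    intro i a
    induction i with
    | zero => simp
    | succ n ih => rw [pow_succ, ih, ← chi_add hζ]; push_cast; ring_nf
  refine ⟨A, ?_, ?_⟩
  · intro i g
    have h1 : g • (∑ j : ZMod p, ζ ^ (-((i : ZMod p) * j)).val * T j) =
        ζ ^ ((i : ZMod p) * f g).val * (∑ j : ZMod p, ζ ^ (-((i : ZMod p) * j)).val * T j) := by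
      rw [Finset.smul_sum, Finset.mul_sum]
      rw [← Equiv.sum_comp (Equiv.addLeft (f g)) (fun j : ZMod p => ζ ^ ((i : ZMod p) * f g).val *
        (ζ ^ (-((i : ZMod p) * j)).val * T j))]
      refine Finset.sum_congr rfl fun j _ => ?_
      rw [smul_mul', smul_pow', hfix, hTg, Equiv.coe_addLeft, ← mul_assoc, ← chi_add hζ]
      congr 3
      ring
    have h2 : g • (β ^ i)⁻¹ = (ζ ^ ((i : ZMod p) * f g).val)⁻¹ * (β ^ i)⁻¹ := by
      rw [hinv, smul_pow', hβ, mul_pow, hpow2, mul_inv]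
    change g • ((p : Ω)⁻¹ * (∑ j : ZMod p, ζ ^ (-((i : ZMod p) * j)).val * T j) *
      (β ^ i)⁻¹) = _
    rw [smul_mul', smul_mul', hinv, hpfix, h1, h2]
    have hz : ζ ^ ((i : ZMod p) * f g).val ≠ 0 :=
      pow_ne_zero _ (hζ.ne_zero (Fact.out (p := p.Prime)).ne_zero)
    field_simp
    simp only [A]
    field_simp
  · have h3 : ∀ i ∈ Finset.range p, A i * β ^ i =
        (p : Ω)⁻¹ * ∑ j : ZMod p, ζ ^ (-((i : ZMod p) * j)).val * T j := by
      intro i _
      simp only [A]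
      rw [mul_assoc, inv_mul_cancel₀ (pow_ne_zero _ hβ0), mul_one]
    rw [Finset.sum_congr rfl h3, ← Finset.mul_sum, Finset.sum_comm]
    have h4 : ∀ j : ZMod p, ∑ i ∈ Finset.range p, ζ ^ (-((i : ZMod p) * j)).val * T j =
        if j = 0 then (p : Ω) * t else 0 := by
      intro j
      rw [← Finset.sum_mul]
      have h5 : ∑ i ∈ Finset.range p, ζ ^ (-((i : ZMod p) * j)).val =
          ∑ i : ZMod p, ζ ^ (i * (-j)).val := by
        symm
        refine Finset.sum_bij (fun i _ => i.val) ?_ ?_ ?_ ?_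
        · intro i _; exact Finset.mem_range.mpr (ZMod.val_lt i)
        · intro i _ k _ h; exact ZMod.val_injective p h
        · intro i hi
          exact ⟨(i : ZMod p), Finset.mem_univ _, ZMod.val_natCast_of_lt (Finset.mem_range.mp hi)⟩
        · intro i _
          rw [ZMod.natCast_val, ZMod.cast_id, mul_neg]
      have h6 := AddChar.sum_mulShift (-j) (AddChar.zmodChar_primitive_of_primitive_root p hζ)
      simp only [AddChar.zmodChar_apply] at h6
      rw [h5, h6, ZMod.card]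
      by_cases hj : j = 0
      · subst hj
        have h7 : T 0 = t := by simp [T]
        simp [h7]
      · simp [hj]
    rw [Finset.sum_congr rfl fun j _ => h4 j, Finset.sum_ite_eq' Finset.univ (0 : ZMod p)]
    simp [hp0]

end decomp

theorem v_sum_pow_le (v : Valuation Ω Γ) {ι : Type} {S : Finset ι} {F : ι → Ω} {n : ℕ} {C : Γ}
    (h : ∀ i ∈ S, v (F i) ^ n ≤ C) (hn : n ≠ 0) : v (∑ i ∈ S, F i) ^ n ≤ C := by
  refine Finset.sum_induction F (fun x => v x ^ n ≤ C) ?_ ?_ h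
  · intro x y hx hy
    rcases le_total (v x) (v y) with hxy | hxy
    · exact (pow_le_pow_left₀ zero_le ((v.map_add x y).trans (max_le hxy le_rfl)) n).trans hy
    · exact (pow_le_pow_left₀ zero_le ((v.map_add x y).trans (max_le le_rfl hxy)) n).trans hx
  · change v 0 ^ n ≤ C
    rw [map_zero, zero_pow hn]
    exact zero_le

namespace Data

theorem p_ne_zero (D : Data v G p m π ζ) : (p : Ω) ≠ 0 := by
  intro h
  have h1 := D.vp
  rw [h, map_zero] at h1
  exact pow_ne_zero _ D.π0 h1.symm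

/-- **Differential inequality**, ramified valuation case (`p ∤ v_K(α)`). -/
theorem main_zero (D : Data v G p m π ζ) {f : G → ZMod p} {β : Ω} {n : ℤ} (hn : ¬ (p : ℤ) ∣ n)
    (hβ : ∀ g : G, g • β = ζ ^ (f g).val * β) (hα : v (β ^ p) = v π ^ n)
    {t : Ω} (ht1 : v t ≤ 1) (ht : ∀ h : G, f h = 0 → h • t = t) (σ : G) :
    v (σ • t - t) ^ p ≤ v π ^ (p * m + 1) := by
  have : Fact p.Prime := ⟨D.hp⟩
  by_cases hσ : f σ = 0
  · rw [ht σ hσ, sub_self, map_zero, zero_pow D.hp.ne_zero]; exact zero_le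
  rw [map_pow] at hα
  have hβ0 : β ≠ 0 := D.z_ne_zero hα
  obtain ⟨a, ha, hta⟩ := exists_decomp D.prim D.p_ne_zero D.fixζ hβ0 hβ hσ ht
  have h1 : σ • t - t = ∑ i ∈ Finset.range p, a i * (σ • (β ^ i) - β ^ i) := by
    rw [hta, Finset.smul_sum, ← Finset.sum_sub_distrib]
    refine Finset.sum_congr rfl fun i _ => ?_
    rw [smul_mul', ha]; ring
  rw [h1]
  refine v_sum_pow_le v (fun i hi => ?_) D.hp.ne_zero
  rw [Finset.mem_range] at hi
  by_cases hi0 : i = 0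
  · subst hi0
    rw [pow_zero, smul_one, sub_self, mul_zero, map_zero, zero_pow D.hp.ne_zero]; exact zero_le
  have h2 : v (a i * β ^ i) ≤ 1 := by
    have h3 := D.v_term_le hα hn a ha hi
    rw [← hta] at h3
    exact h3.trans ht1
  have h4 := D.v_monomial_le hα hn (ha i) hi0 hi h2
  have h5 : a i * (σ • (β ^ i) - β ^ i) = (ζ ^ ((f σ).val * i) - 1) * (a i * β ^ i) := by
    rw [smul_pow', hβ, mul_pow, ← pow_mul]; ring
  rw [h5, map_mul, mul_pow]
  calc v (ζ ^ ((f σ).val * i) - 1) ^ p * v (a i * β ^ i) ^ p ≤ v (ζ - 1) ^ p * v π :=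
        mul_le_mul' (pow_le_pow_left₀ zero_le (v_zeta_pow_sub_one v D.prim _) p) h4
    _ = v π ^ (p * m + 1) := by rw [D.v_zeta, ← pow_mul, pow_succ, mul_comm m p]

/-- **Differential inequality**, unit case: `v (α - 1) = v π ^ s`, `p ∤ s`, `0 < s < p m`. -/
theorem main_pos (D : Data v G p m π ζ) {f : G → ZMod p} {β : Ω} {s : ℕ} (hs : ¬ p ∣ s)
    (hs0 : 0 < s) (hsm : s < p * m)
    (hβ : ∀ g : G, g • β = ζ ^ (f g).val * β) (hα : v (β ^ p - 1) = v π ^ s)
    {t : Ω} (ht1 : v t ≤ 1) (ht : ∀ h : G, f h = 0 → h • t = t) (σ : G) :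
    v (σ • t - t) ^ p * v π ^ s ≤ v π ^ (p * m + 1) := by
  have : Fact p.Prime := ⟨D.hp⟩
  by_cases hσ : f σ = 0
  · rw [ht σ hσ, sub_self, map_zero, zero_pow D.hp.ne_zero, zero_mul]; exact zero_le
  have hz : v (β - 1) ^ p = v π ^ s := by
    rw [← hα]
    refine v_sub_one_pow v D.prim β ?_
    rw [hα, D.v_zeta, ← pow_mul, mul_comm]
    exact D.pow_lt.mpr hsm
  have hz1 : v (β - 1) < 1 := by
    by_contra h
    rw [not_lt] at h
    have h1 : (1 : Γ) ≤ v (β - 1) ^ p := one_le_pow₀ h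
    rw [hz] at h1
    exact absurd h1 (not_le.mpr (pow_lt_one₀ zero_le D.π1 hs0.ne'))
  have hβ1 : v β = 1 := by
    have h1 : β = 1 + (β - 1) := by ring
    rw [h1, v.map_one_add_of_lt hz1]
  have hβ0 : β ≠ 0 := by
    rintro rfl; rw [map_zero] at hβ1; exact zero_ne_one hβ1
  obtain ⟨a, ha, hta⟩ := exists_decomp D.prim D.p_ne_zero D.fixζ hβ0 hβ hσ ht
  obtain ⟨z, rfl⟩ : ∃ z, β = 1 + z := ⟨β - 1, by ring⟩
  rw [add_sub_cancel_left] at hz hz1
  have hz' : v z ^ p = v π ^ (s : ℤ) := by rw [hz, zpow_natCast]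
  have hs' : ¬ (p : ℤ) ∣ (s : ℤ) := by rwa [Int.natCast_dvd_natCast]
  -- change of basis
  let b : ℕ → Ω := fun j => ∑ i ∈ Finset.range p, a i * (i.choose j : Ω)
  have hb : ∀ j, ∀ g : G, g • b j = b j := by
    intro j g
    simp only [b]
    rw [Finset.smul_sum]
    refine Finset.sum_congr rfl fun i _ => ?_
    rw [smul_mul', ha]
    congr 1
    exact map_natCast (MulSemiringAction.toRingHom G Ω g) _
  have htb : t = ∑ j ∈ Finset.range p, b j * z ^ j := by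
    rw [hta]
    simp only [b, Finset.sum_mul]
    rw [Finset.sum_comm]
    refine Finset.sum_congr rfl fun i hi => ?_
    rw [Finset.mem_range] at hi
    rw [add_comm 1 z, add_pow, Finset.mul_sum]
    have h2 : Finset.range (i + 1) ⊆ Finset.range p := by
      intro j hj; rw [Finset.mem_range] at hj ⊢; omega
    rw [← Finset.sum_subset h2]
    · refine Finset.sum_congr rfl fun j _ => ?_
      rw [one_pow]; ring
    · intro j _ hj
      rw [Finset.mem_range, not_lt] at hj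
      rw [Nat.choose_eq_zero_of_lt (by omega)]
      simp
  have h1 : σ • t - t = ∑ i ∈ Finset.range p, b i * (σ • (z ^ i) - z ^ i) := by
    rw [htb, Finset.smul_sum, ← Finset.sum_sub_distrib]
    refine Finset.sum_congr rfl fun i _ => ?_
    rw [smul_mul', hb]; ring
  have hσz : v (σ • z - z) ≤ v (ζ - 1) := by
    have h2 : σ • z - z = (ζ ^ (f σ).val - 1) * (1 + z) := by
      have h3 := hβ σ
      rw [smul_add, smul_one] at h3
      linear_combination h3
    rw [h2, map_mul, hβ1, mul_one]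
    exact v_zeta_pow_sub_one v D.prim _
  have hdiff : ∀ i, v (σ • (z ^ i) - z ^ i) * v z ≤ v (ζ - 1) * v (z ^ i) := by
    intro i
    by_cases hi0 : i = 0
    · subst hi0
      rw [pow_zero, smul_one, sub_self, map_zero, zero_mul]; exact zero_le
    rw [smul_pow', ← (Commute.all (σ • z) z).mul_geom_sum₂ i, map_mul, mul_assoc]
    refine mul_le_mul' hσz ?_
    rw [← map_mul, Finset.sum_mul]
    refine v.map_sum_le fun j hj => ?_
    rw [Finset.mem_range] at hj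
    rw [map_mul, map_mul, map_pow, D.inv, ← map_pow, ← map_mul, ← map_mul]
    apply le_of_eq
    congr 1
    have h3 : i = j + (i - 1 - j) + 1 := by omega
    conv_rhs => rw [h3]
    rw [pow_succ, pow_add]
  -- conclusion
  have hmain : v (σ • t - t) ^ p * v z ^ p ≤ v π ^ (p * m + 1) := by
    rw [← mul_pow, ← map_mul, h1, Finset.sum_mul]
    refine v_sum_pow_le v (fun i hi => ?_) D.hp.ne_zero
    rw [Finset.mem_range] at hi
    by_cases hi0 : i = 0
    · subst hi0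
      rw [pow_zero, smul_one, sub_self, mul_zero, zero_mul, map_zero, zero_pow D.hp.ne_zero]
      exact zero_le
    have h2 : v (b i * z ^ i) ≤ 1 := by
      have h3 := D.v_term_le hz' hs' b hb hi
      rw [← htb] at h3
      exact h3.trans ht1
    have h4 := D.v_monomial_le hz' hs' (hb i) hi0 hi h2
    calc v (b i * (σ • (z ^ i) - z ^ i) * z) ^ p
        = (v (b i) * (v (σ • (z ^ i) - z ^ i) * v z)) ^ p := by
          rw [map_mul, map_mul, mul_assoc]
      _ ≤ (v (b i) * (v (ζ - 1) * v (z ^ i))) ^ p :=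
          pow_le_pow_left₀ zero_le (mul_le_mul' le_rfl (hdiff i)) p
      _ = v (ζ - 1) ^ p * v (b i * z ^ i) ^ p := by rw [map_mul, ← mul_pow, mul_left_comm]
      _ ≤ v (ζ - 1) ^ p * v π := mul_le_mul' le_rfl h4
      _ = v π ^ (p * m + 1) := by rw [D.v_zeta, ← pow_mul, pow_succ, mul_comm m p]
  rwa [hz] at hmain

end Data

end main

end Fermat.Agent.TWP.Flat.Kummer
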