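import Mathlib
import Fermat.Agent.TWP.Flat.Kummer

/-!
# Unit filtration modulo `p`-th powers, normal form of Kummer generators
-/

set_option autoImplicit false

namespace Fermat.Agent.TWP.Flat.Kummer

variable {Ω : Type} [Field Ω] {Γ : Type} [LinearOrderedCommGroupWithZero Γ]
  {v : Valuation Ω Γ} {G : Type} [Group G] [MulSemiringAction G Ω] {p m : ℕ} {π ζ : Ω}

theorem smul_inv_field (g : G) (x : Ω) : g • x⁻¹ = (g • x)⁻¹ :=
  map_inv₀ (MulSemiringAction.toRingHom G Ω g) x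

theorem smul_natCast_field (g : G) (n : ℕ) : g • (n : Ω) = n :=
  map_natCast (MulSemiringAction.toRingHom G Ω g) n

theorem v_eq_one_of_sub_one_lt {x : Ω} (h : v (x - 1) < 1) : v x = 1 := by
  have h1 : x = 1 + (x - 1) := by ring
  rw [h1, v.map_one_add_of_lt h]

namespace Data

theorem ppos (D : Data v G p m π ζ) : 0 < p := D.hp.pos

theorem π_ne (D : Data v G p m π ζ) : π ≠ 0 := (Valuation.ne_zero_iff v).mp D.π0

/-- Discreteness: an element of `K` of valuation `< v π ^ n` has valuation `≤ v π ^ (n+1)`. -/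
theorem le_of_lt (D : Data v G p m π ζ) {x : Ω} (hx : ∀ g : G, g • x = x) {n : ℕ}
    (h : v x < v π ^ n) : v x ≤ v π ^ (n + 1) := by
  by_cases hx0 : x = 0
  · rw [hx0, map_zero]; exact zero_le
  obtain ⟨k, hk⟩ := D.disc x hx hx0
  rw [hk] at h ⊢
  rw [← zpow_natCast, D.zpow_lt] at h
  rw [← zpow_natCast, D.zpow_le]
  push_cast; omega

/-- (C4) one-units of level `p m` are `p`-th powers. -/
theorem exists_root [IsAlgClosed Ω] (D : Data v G p m π ζ) {x : Ω} (hx : ∀ g : G, g • x = x)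
    (h : v (x - 1) ≤ v π ^ (p * m)) : ∃ y : Ω, (∀ g : G, g • y = y) ∧ y ^ p = x := by
  have : Fact p.Prime := ⟨D.hp⟩
  obtain ⟨y, hy⟩ := IsAlgClosed.exists_pow_nat_eq x D.ppos
  refine ⟨y, ?_, hy⟩
  have hm : v π ^ m < 1 := pow_lt_one₀ zero_le D.π1 D.hm.ne'
  have hy1 : v (y - 1) ≤ v (ζ - 1) := by
    refine v_sub_one_le v D.prim y ?_
    rwa [hy, D.v_zeta, ← pow_mul, mul_comm]
  have hvy : v y = 1 := v_eq_one_of_sub_one_lt (hy1.trans_lt (by rwa [D.v_zeta]))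
  have hζ1 : ζ - 1 ≠ 0 := by
    intro h0
    have h1 := D.v_zeta
    rw [h0, map_zero] at h1
    exact pow_ne_zero _ D.π0 h1.symm
  intro g
  have h1 : (g • y) ^ p = y ^ p := by rw [← smul_pow', hy, hx]
  have hy0 : y ≠ 0 := by rintro rfl; rw [map_zero] at hvy; exact zero_ne_one hvy
  obtain ⟨i, hi, hi2⟩ := D.prim.eq_pow_of_pow_eq_one (ξ := g • y / y)
    (by rw [div_pow, h1, div_self (pow_ne_zero _ hy0)])
  have hgy : g • y = ζ ^ i * y := by rw [hi2, div_mul_cancel₀ _ hy0]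
  by_cases hpi : p ∣ i
  · have h0 : i = 0 := Nat.eq_zero_of_dvd_of_lt hpi hi
    rw [hgy, h0, pow_zero, one_mul]
  · exfalso
    have h2 := D.triv g ((y - 1) / (ζ - 1)) (by
      rw [map_div₀]
      exact div_le_one_of_le₀ hy1 zero_le)
    have h3 : g • ((y - 1) / (ζ - 1)) - (y - 1) / (ζ - 1) = (ζ ^ i - 1) * y / (ζ - 1) := by
      rw [div_eq_mul_inv, smul_mul', smul_inv_field, smul_sub, smul_sub, smul_one, hgy, D.fixζ]
      field_simp
      ring
    rw [h3, map_div₀, map_mul, hvy, mul_one, v_zeta_pow_sub_one' v D.prim i hpi,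
      div_self ((Valuation.ne_zero_iff v).mpr hζ1)] at h2
    exact lt_irrefl _ h2

/-- (R1) `p`-th roots modulo the maximal ideal, inside `K`. -/
theorem exists_root_mod [IsAlgClosed Ω] (D : Data v G p m π ζ) {x : Ω} (hx : v x ≤ 1) :
    ∃ y : Ω, (∀ g : G, g • y = y) ∧ v y ≤ 1 ∧ v (y ^ p - x) < 1 := by
  obtain ⟨w, hw⟩ := IsAlgClosed.exists_pow_nat_eq x D.ppos
  have hw1 : v w ≤ 1 := by
    by_contra h
    rw [not_le] at h
    have h1 : 1 < v w ^ p := one_lt_pow₀ h D.hp.ne_zero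
    rw [← map_pow, hw] at h1
    exact absurd h1 (not_lt.mpr hx)
  obtain ⟨y, hy, hy2⟩ := D.res w hw1
  have hy1 : v y ≤ 1 := by
    have h1 : y = w - (w - y) := by ring
    rw [h1]
    exact (v.map_sub _ _).trans (max_le hw1 hy2.le)
  refine ⟨y, hy, hy1, ?_⟩
  rw [← hw, ← (Commute.all y w).mul_geom_sum₂ p, map_mul]
  refine mul_lt_one_of_lt_of_le ?_ ?_
  · rwa [Valuation.map_sub_swap]
  · refine v.map_sum_le fun j _ => ?_
    rw [map_mul, map_pow, map_pow]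
    exact mul_le_one₀ (pow_le_one₀ zero_le hy1) zero_le (pow_le_one₀ zero_le hw1)

/-- `v ((1+y)^p - 1 - y^p) ≤ v p * v y` for integral `y`. -/
theorem v_natCast_le (v : Valuation Ω Γ) (n : ℕ) : v (n : Ω) ≤ 1 := by
  induction n with
  | zero => simp
  | succ n ih =>
    rw [Nat.cast_succ]
    exact (v.map_add _ _).trans (max_le ih (by simp))

theorem v_add_pow_sub (D : Data v G p m π ζ) {y : Ω} (hy : v y ≤ 1) :
    v ((1 + y) ^ p - 1 - y ^ p) ≤ v (p : Ω) * v y := by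
  have h1 : (1 + y) ^ p - 1 - y ^ p = p * y *
      ∑ k ∈ Finset.Ioo 0 p, 1 ^ (k - 1) * y ^ (p - k - 1) * ((p.choose k / p : ℕ) : Ω) := by
    rw [add_pow_prime_eq D.hp]; ring
  rw [h1, map_mul, map_mul]
  refine mul_le_of_le_one_right' (v.map_sum_le fun j _ => ?_)
  rw [map_mul, map_mul, one_pow, map_one, one_mul, map_pow]
  exact mul_le_one₀ (pow_le_one₀ zero_le hy) zero_le (v_natCast_le v _)

/-- (C3) for `0 < j < m`: `U^{pj} ⊂ U^{pj+1} K^{*p}`. -/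
theorem step [IsAlgClosed Ω] (D : Data v G p m π ζ) {j : ℕ} (hj1 : 0 < j) (hjm : j < m) {α : Ω}
    (hα : ∀ g : G, g • α = α) (h : v (α - 1) ≤ v π ^ (p * j)) :
    ∃ γ : Ω, (∀ g : G, g • γ = γ) ∧ γ ≠ 0 ∧ v (γ - 1) ≤ v π ^ j ∧
      v (α * γ ^ p - 1) ≤ v π ^ (p * j + 1) := by
  have hπj : π ^ (p * j) ≠ 0 := pow_ne_zero _ D.π_ne
  have hvu : v ((α - 1) / π ^ (p * j)) ≤ 1 := by
    rw [map_div₀, map_pow]
    exact div_le_one_of_le₀ h zero_le
  obtain ⟨y, hy, hy1, hyu⟩ := D.exists_root_mod hvu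
  have hvπy : v (π ^ j * y) ≤ v π ^ j := by
    rw [map_mul, map_pow]; exact mul_le_of_le_one_right' hy1
  have hπj1 : v π ^ j < 1 := pow_lt_one₀ zero_le D.π1 hj1.ne'
  have hE := D.v_add_pow_sub (hvπy.trans hπj1.le)
  have hvδ : v (1 + π ^ j * y) = 1 := v.map_one_add_of_lt (hvπy.trans_lt hπj1)
  have hδ0 : 1 + π ^ j * y ≠ 0 := by
    intro h0; rw [h0, map_zero] at hvδ; exact zero_ne_one hvδ
  have hmain : v (α - (1 + π ^ j * y) ^ p) < v π ^ (p * j) := by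
    have h1 : α - (1 + π ^ j * y) ^ p = -(π ^ (p * j) * (y ^ p - (α - 1) / π ^ (p * j))) -
        ((1 + π ^ j * y) ^ p - 1 - (π ^ j * y) ^ p) := by
      rw [mul_sub, mul_div_cancel₀ _ hπj, mul_pow (π ^ j) y, ← pow_mul, mul_comm j p]
      ring
    rw [h1]
    refine (v.map_sub _ _).trans_lt (max_lt ?_ ?_)
    · rw [Valuation.map_neg, map_mul, map_pow]
      exact mul_lt_of_lt_one_right (pow_pos D.vpos _) hyu
    · refine hE.trans_lt ?_
      refine (mul_le_mul' le_rfl hvπy).trans_lt ?_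
      rw [D.vp, ← pow_add, D.pow_lt]
      obtain ⟨k, hk⟩ : ∃ k, p = k + 1 := ⟨p - 1, by have := D.ppos; omega⟩
      rw [hk]
      have hk0 : 0 < k := by have := D.hp.two_le; omega
      have : k * j < k * m := Nat.mul_lt_mul_of_pos_left hjm hk0
      rw [Nat.add_sub_cancel]
      nlinarith
  have hδfix : ∀ g : G, g • (1 + π ^ j * y) = 1 + π ^ j * y := fun g => by
    rw [smul_add, smul_one, smul_mul', smul_pow', D.fixπ, hy]
  have hγfix : ∀ g : G, g • (1 + π ^ j * y)⁻¹ = (1 + π ^ j * y)⁻¹ := fun g => by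
    rw [smul_inv_field, hδfix]
  refine ⟨(1 + π ^ j * y)⁻¹, hγfix, inv_ne_zero hδ0, ?_, ?_⟩
  · have h1 : (1 + π ^ j * y)⁻¹ - 1 = -(π ^ j * y) / (1 + π ^ j * y) := by field_simp; ring
    rw [h1, map_div₀, hvδ, div_one, Valuation.map_neg]
    exact hvπy
  · refine D.le_of_lt (fun g => ?_) ?_
    · rw [smul_sub, smul_one, smul_mul', smul_pow', hγfix, hα]
    · have h1 : α * (1 + π ^ j * y)⁻¹ ^ p - 1 =
          (α - (1 + π ^ j * y) ^ p) / (1 + π ^ j * y) ^ p := by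
        rw [inv_pow, eq_div_iff (pow_ne_zero _ hδ0), sub_mul, one_mul, mul_assoc,
          inv_mul_cancel₀ (pow_ne_zero _ hδ0), mul_one]
      rw [h1, map_div₀, map_pow, hvδ, one_pow, div_one]
      exact hmain

/-- (C3) for `j = 0`: units are one-units up to `p`-th powers. -/
theorem step_zero [IsAlgClosed Ω] (D : Data v G p m π ζ) {α : Ω}
    (hα : ∀ g : G, g • α = α) (h : v α = 1) :
    ∃ γ : Ω, (∀ g : G, g • γ = γ) ∧ γ ≠ 0 ∧ v (α * γ ^ p - 1) ≤ v π ^ 1 := by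
  obtain ⟨y, hy, hy1, hyu⟩ := D.exists_root_mod h.le
  have hvy : v (y ^ p) = 1 := by
    have h1 : y ^ p = α - (α - y ^ p) := by ring
    rw [h1, Valuation.map_sub_eq_of_lt_left]
    · exact h
    · rw [Valuation.map_sub_swap, h]; exact hyu
  have hy0 : y ≠ 0 := by
    rintro rfl; rw [zero_pow D.hp.ne_zero, map_zero] at hvy; exact zero_ne_one hvy
  have hγfix : ∀ g : G, g • y⁻¹ = y⁻¹ := fun g => by rw [smul_inv_field, hy]
  refine ⟨y⁻¹, hγfix, inv_ne_zero hy0, ?_⟩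
  have h0 := D.le_of_lt (x := α * y⁻¹ ^ p - 1) (n := 0) (fun g => by
    rw [smul_sub, smul_one, smul_mul', smul_pow', hγfix, hα]) (by
    have h1 : α * y⁻¹ ^ p - 1 = -(y ^ p - α) / y ^ p := by
      rw [inv_pow, eq_div_iff (pow_ne_zero _ hy0), sub_mul, one_mul, mul_assoc,
        inv_mul_cancel₀ (pow_ne_zero _ hy0), mul_one]
      ring
    rw [h1, map_div₀, hvy, div_one, Valuation.map_neg, pow_zero]
    exact hyu)
  simpa using h0

end Data

/-! ### Kummer generators -/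

theorem IsGen.mul_pow {f : G → ZMod p} {α γ : Ω} (h : IsGen G ζ f α)
    (hγ : ∀ g : G, g • γ = γ) (hγ0 : γ ≠ 0) : IsGen G ζ f (α * γ ^ p) := by
  obtain ⟨h1, h2, β, h3, h4⟩ := h
  refine ⟨fun g => by rw [smul_mul', smul_pow', h1, hγ], mul_ne_zero h2 (pow_ne_zero _ hγ0),
    β * γ, by rw [_root_.mul_pow, h3], fun g => by rw [smul_mul', h4, hγ]; ring⟩

/-- Generators in the `s`-th unit group. -/
def U (v : Valuation Ω Γ) (G : Type) [Group G] [MulSemiringAction G Ω] (π ζ : Ω) (s : ℕ)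
    (f : G → ZMod p) : Prop :=
  ∃ α : Ω, IsGen G ζ f α ∧ v (α - 1) ≤ v π ^ s

/-- `f` has Kummer break `0` (tame-like generator of valuation prime to `p`). -/
def BreakZero (v : Valuation Ω Γ) (G : Type) [Group G] [MulSemiringAction G Ω] (π ζ : Ω)
    (f : G → ZMod p) : Prop :=
  ∃ (α : Ω) (n : ℤ), IsGen G ζ f α ∧ v α = v π ^ n ∧ ¬ (p : ℤ) ∣ n

/-- `f` has Kummer break `s`, with `0 < s < p m` prime to `p`. -/
def BreakPos (v : Valuation Ω Γ) (G : Type) [Group G] [MulSemiringAction G Ω] (m : ℕ) (π ζ : Ω)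
    (s : ℕ) (f : G → ZMod p) : Prop :=
  0 < s ∧ s < p * m ∧ ¬ p ∣ s ∧ ∃ α : Ω, IsGen G ζ f α ∧ v (α - 1) = v π ^ s

namespace Data

theorem eq_zero_of_U [IsAlgClosed Ω] (D : Data v G p m π ζ) {f : G → ZMod p}
    (h : U v G π ζ (p * m) f) (g : G) : f g = 0 := by
  have : Fact p.Prime := ⟨D.hp⟩
  obtain ⟨α, ⟨h1, h2, β, h3, h4⟩, h5⟩ := h
  obtain ⟨y, hy, hy2⟩ := D.exists_root h1 h5
  have hy0 : y ≠ 0 := by
    rintro rfl; rw [zero_pow D.hp.ne_zero] at hy2; exact h2 hy2.symm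
  obtain ⟨i, -, hi2⟩ := D.prim.eq_pow_of_pow_eq_one (ξ := β / y)
    (by rw [div_pow, h3, hy2, div_self h2])
  have hβ : β = ζ ^ i * y := by rw [hi2, div_mul_cancel₀ _ hy0]
  have h6 := h4 g
  have hβfix : g • β = β := by rw [hβ, smul_mul', smul_pow', D.fixζ, hy]
  rw [hβfix] at h6
  have hβ0 : β ≠ 0 := by
    rintro rfl; rw [zero_pow D.hp.ne_zero] at h3; exact h2 h3.symm
  have h7 : ζ ^ (f g).val = 1 := by
    apply mul_right_cancel₀ hβ0; rw [one_mul]; exact h6.symm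
  apply chi_inj D.prim
  rw [h7]; simp

theorem U_succ_of_dvd [IsAlgClosed Ω] (D : Data v G p m π ζ) {f : G → ZMod p} {s : ℕ}
    (hs0 : 0 < s) (hs : s < p * m) (hps : p ∣ s) (h : U v G π ζ s f) : U v G π ζ (s + 1) f := by
  obtain ⟨α, h1, h2⟩ := h
  obtain ⟨j, rfl⟩ := hps
  obtain ⟨γ, hγ, hγ0, -, hγ2⟩ := D.step (Nat.pos_of_mul_pos_left hs0 |> fun h => by
    rcases Nat.eq_zero_or_pos j with rfl | h; · simp at hs0
    exact h) (lt_of_mul_lt_mul_left hs (Nat.zero_le p)) h1.1 h2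
  exact ⟨_, h1.mul_pow hγ hγ0, hγ2⟩

/-- Normal form, one-units. -/
theorem exists_breakPos [IsAlgClosed Ω] (D : Data v G p m π ζ) {f : G → ZMod p} (g : G)
    (hg : f g ≠ 0) (k : ℕ) : ∀ s : ℕ, 0 < s → s + k = p * m → U v G π ζ s f →
      ∃ s', s ≤ s' ∧ BreakPos v G m π ζ s' f := by
  induction k with
  | zero =>
    intro s _ hs h
    rw [add_zero] at hs
    rw [hs] at h
    exact absurd (D.eq_zero_of_U h g) hg
  | succ k ih =>
    intro s hs0 hs h
    by_cases hps : p ∣ s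
    · obtain ⟨s', h1, h2⟩ := ih (s + 1) (by omega) (by omega)
        (D.U_succ_of_dvd hs0 (by omega) hps h)
      exact ⟨s', by omega, h2⟩
    · obtain ⟨α, h1, h2⟩ := h
      rcases h2.lt_or_eq with h3 | h3
      · obtain ⟨s', h4, h5⟩ := ih (s + 1) (by omega) (by omega)
          ⟨α, h1, D.le_of_lt (fun g => by rw [smul_sub, smul_one, h1.1]) h3⟩
        exact ⟨s', by omega, h5⟩
      · exact ⟨s, le_rfl, hs0, by omega, hps, α, h1, h3⟩

/-- **Normal form** of Kummer generators. -/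
theorem normal_form [IsAlgClosed Ω] (D : Data v G p m π ζ) {f : G → ZMod p} {g : G}
    (hg : f g ≠ 0) {α : Ω} (hα : IsGen G ζ f α) :
    BreakZero v G π ζ f ∨ ∃ s, BreakPos v G m π ζ s f := by
  obtain ⟨n, hn⟩ := D.disc α hα.1 hα.2.1
  by_cases hpn : (p : ℤ) ∣ n
  · right
    obtain ⟨k, rfl⟩ := hpn
    have h1 : IsGen G ζ f (α * (π ^ (-k)) ^ p) := hα.mul_pow (fun g => by
      rw [show g • π ^ (-k) = (g • π) ^ (-k) from
        map_zpow₀ (MulSemiringAction.toRingHom G Ω g) π (-k), D.fixπ]) (zpow_ne_zero _ D.π_ne)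
    have h2 : v (α * (π ^ (-k)) ^ p) = 1 := by
      rw [map_mul, map_pow, map_zpow₀, hn, ← zpow_natCast, ← zpow_mul, ← zpow_add₀ D.π0]
      rw [show (p : ℤ) * k + -k * p = 0 by ring, zpow_zero]
    obtain ⟨γ, hγ, hγ0, hγ2⟩ := D.step_zero h1.1 h2
    have hpm : 1 ≤ p * m := Nat.mul_pos D.ppos D.hm
    obtain ⟨s, -, hs⟩ := D.exists_breakPos g hg (p * m - 1) 1 one_pos (by omega)
      ⟨_, h1.mul_pow hγ hγ0, hγ2⟩
    exact ⟨s, hs⟩
  · left
    exact ⟨α, n, hα, hn, hpn⟩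

/-- **Differential inequality** for characters with a Kummer break. -/
theorem ineq_zero (D : Data v G p m π ζ) {f : G → ZMod p} (hb : BreakZero v G π ζ f)
    {t : Ω} (ht1 : v t ≤ 1) (ht : ∀ h : G, f h = 0 → h • t = t) (σ : G) :
    v (σ • t - t) ^ p ≤ v π ^ (p * m + 1) := by
  obtain ⟨α, n, ⟨h1, h2, β, h3, h4⟩, h5, h6⟩ := hb
  exact D.main_zero h6 h4 (by rw [h3, h5]) ht1 ht σ

theorem ineq_pos (D : Data v G p m π ζ) {f : G → ZMod p} {s : ℕ}
    (hb : BreakPos v G m π ζ s f)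
    {t : Ω} (ht1 : v t ≤ 1) (ht : ∀ h : G, f h = 0 → h • t = t) (σ : G) :
    v (σ • t - t) ^ p * v π ^ s ≤ v π ^ (p * m + 1) := by
  obtain ⟨hs0, hsm, hps, α, ⟨h1, h2, β, h3, h4⟩, h5⟩ := hb
  exact D.main_pos hps hs0 hsm h4 (by rw [h3, h5]) ht1 ht σ

end Data

end Fermat.Agent.TWP.Flat.Kummer
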