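import Mathlib
import Fermat.Agent.TWP.Flat.KummerUnits

/-!
# The ramification inequality (F4) and its combination with the Kummer side (F5)
-/

set_option autoImplicit false

open Polynomial

namespace Fermat.Agent.TWP.Flat.Kummer

variable {Ω : Type} [Field Ω] {Γ : Type} [LinearOrderedCommGroupWithZero Γ]
  {v : Valuation Ω Γ} {G : Type} [Group G] [MulSemiringAction G Ω] {p m : ℕ} {π ζ : Ω}

theorem v_coeff_prod_le (v : Valuation Ω Γ) (S : Finset Ω) (h : ∀ y ∈ S, v y ≤ 1) (n : ℕ) :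
    v ((∏ y ∈ S, (X - C y)).coeff n) ≤ 1 := by
  classical
  induction S using Finset.induction_on generalizing n with
  | empty =>
    rw [Finset.prod_empty, coeff_one]
    split_ifs <;> simp
  | insert a S ha ih =>
    have ih' := ih fun y hy => h y (Finset.mem_insert_of_mem hy)
    rw [Finset.prod_insert ha, sub_mul, coeff_sub, coeff_C_mul]
    refine (v.map_sub _ _).trans (max_le ?_ ?_)
    · rcases n with _ | n
      · rw [coeff_X_mul_zero, map_zero]; exact zero_le
      · rw [coeff_X_mul]; exact ih' n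
    · rw [map_mul]
      exact mul_le_one₀ (h a (Finset.mem_insert_self _ _)) zero_le (ih' n)

/-- **Ramification inequality.** -/
theorem exists_coeff (hinv : ∀ (g : G) (x : Ω), v (g • x) = v x) (H : Set G)
    (hone : 1 ∈ H) (hmul : ∀ g h, g ∈ H → h ∈ H → g * h ∈ H) (hinvH : ∀ g ∈ H, g⁻¹ ∈ H)
    {θ ϖ : Ω} (hθ : v θ ≤ 1)
    (O : Finset Ω) (hO : ∀ y, y ∈ O ↔ ∃ h ∈ H, h • θ = y)
    (hstab : ∀ g : G, g • θ = θ → g ∈ H)
    (hlow : ∀ g : G, g • θ ≠ θ → v ϖ ≤ v (g • θ - θ)) {σ : G} (hσ : σ ∉ H) :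
    ∃ t : Ω, v t ≤ 1 ∧ (∀ h ∈ H, h • t = t) ∧ v ϖ ^ O.card ≤ v (σ • t - t) := by
  classical
  let F : Polynomial Ω := ∏ y ∈ O, (X - C y)
  have hmap : ∀ g : G, F.map (MulSemiringAction.toRingHom G Ω g) = ∏ y ∈ O, (X - C (g • y)) := by
    intro g
    simp only [F]
    rw [Polynomial.map_prod]
    refine Finset.prod_congr rfl fun y _ => ?_
    rw [Polynomial.map_sub, map_X, map_C]; rfl
  have hfix : ∀ h ∈ H, F.map (MulSemiringAction.toRingHom G Ω h) = F := by
    intro h hh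
    rw [hmap]
    refine Finset.prod_bij (fun y _ => h • y) ?_ ?_ ?_ ?_
    · intro y hy
      obtain ⟨k, hk, rfl⟩ := (hO y).mp hy
      exact (hO _).mpr ⟨h * k, hmul _ _ hh hk, mul_smul _ _ _⟩
    · intro a _ b _ hab
      exact smul_left_cancel h hab
    · intro y hy
      obtain ⟨k, hk, rfl⟩ := (hO y).mp hy
      exact ⟨h⁻¹ • k • θ, (hO _).mpr ⟨h⁻¹ * k, hmul _ _ (hinvH _ hh) hk, mul_smul _ _ _⟩,
        smul_inv_smul _ _⟩
    · intro y _; rfl
  have hcoeff : ∀ h ∈ H, ∀ n, h • F.coeff n = F.coeff n := by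
    intro h hh n
    have h1 := congrArg (fun P => coeff P n) (hfix h hh)
    simp only [coeff_map] at h1
    exact h1
  have hO1 : ∀ y ∈ O, v y ≤ 1 := by
    intro y hy
    obtain ⟨h, -, rfl⟩ := (hO y).mp hy
    rw [hinv]; exact hθ
  have hroot : F.eval θ = 0 := by
    simp only [F]
    rw [eval_prod]
    refine Finset.prod_eq_zero ((hO θ).mpr ⟨1, hone, one_smul _ _⟩) ?_
    simp
  by_cases hϖ : v ϖ = 0
  · refine ⟨F.coeff 0, v_coeff_prod_le v O hO1 0, fun h hh => hcoeff h hh 0, ?_⟩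
    rw [hϖ, zero_pow]
    · exact zero_le
    · exact (Finset.card_pos.mpr ⟨θ, (hO θ).mpr ⟨1, hone, one_smul _ _⟩⟩).ne'
  -- the value of `σ F` at `θ`
  have hval : v ϖ ^ O.card ≤ v ((F.map (MulSemiringAction.toRingHom G Ω σ)).eval θ) := by
    rw [hmap, eval_prod, map_prod, ← Finset.prod_const]
    refine Finset.prod_le_prod' fun y hy => ?_
    obtain ⟨h, hh, rfl⟩ := (hO y).mp hy
    rw [eval_sub, eval_X, eval_C, Valuation.map_sub_swap, ← mul_smul]
    refine hlow _ fun h1 => hσ ?_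
    have h2 := hmul _ _ (hstab _ h1) (hinvH _ hh)
    rwa [mul_inv_cancel_right] at h2
  by_contra hcon
  push Not at hcon
  have hlt : ∀ n, v (σ • F.coeff n - F.coeff n) < v ϖ ^ O.card := fun n =>
    hcon _ (v_coeff_prod_le v O hO1 n) (fun h hh => hcoeff h hh n)
  refine absurd hval (not_le.mpr ?_)
  have h3 : (F.map (MulSemiringAction.toRingHom G Ω σ)).eval θ =
      ∑ n ∈ Finset.range (F.natDegree + 1), (σ • F.coeff n - F.coeff n) * θ ^ n := by
    have h4 : (F.map (MulSemiringAction.toRingHom G Ω σ)).eval θ =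
        ∑ n ∈ Finset.range (F.natDegree + 1), (σ • F.coeff n) * θ ^ n := by
      rw [eval_eq_sum_range' (n := F.natDegree + 1)
        (Nat.lt_succ_of_le (natDegree_map_le))]
      refine Finset.sum_congr rfl fun n _ => ?_
      rw [coeff_map]; rfl
    rw [h4, ← sub_zero (∑ n ∈ Finset.range (F.natDegree + 1), (σ • F.coeff n) * θ ^ n), ← hroot,
      eval_eq_sum_range, ← Finset.sum_sub_distrib]
    refine Finset.sum_congr rfl fun n _ => by ring
  rw [h3]
  refine v.map_sum_lt (pow_ne_zero _ hϖ) fun n _ => ?_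
  rw [map_mul, map_pow]
  exact (mul_le_of_le_one_right' (pow_le_one₀ zero_le hθ)).trans_lt (hlt n)

/-- **Existence of Kummer generators** (Lagrange resolvents). -/
theorem Data.exists_gen (D : Data v G p m π ζ) {f : G → ZMod p}
    (hf : ∀ g h, f (g * h) = f g + f h) {t : Ω} (ht : ∀ h : G, f h = 0 → h • t = t) {σ : G}
    (hσ : σ • t ≠ t) : ∃ α : Ω, IsGen G ζ f α := by
  classical
  have : Fact p.Prime := ⟨D.hp⟩
  have hσ0 : f σ ≠ 0 := fun h => hσ (ht σ h)
  have hone : f 1 = 0 := by have h := hf 1 1; rw [mul_one] at h; exact left_eq_add.mp h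
  have hpow' : ∀ (g : G) (n : ℕ), f (g ^ n) = n * f g := by
    intro g n
    induction n with
    | zero => rw [pow_zero, hone]; simp
    | succ n ih => rw [pow_succ, hf, ih]; push_cast; ring
  have hinv : ∀ g : G, f g⁻¹ = - f g := by
    intro g
    have h := hf g g⁻¹
    rw [mul_inv_cancel, hone] at h
    exact (neg_eq_of_add_eq_zero_right h.symm).symm
  obtain ⟨τ, hτ⟩ : ∃ τ : G, f τ = 1 := by
    refine ⟨σ ^ ((f σ)⁻¹).val, ?_⟩
    rw [hpow', ZMod.natCast_val, ZMod.cast_id, inv_mul_cancel₀ hσ0]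
  have hpow : ∀ n : ℕ, f (τ ^ n) = n := fun n => by rw [hpow', hτ, mul_one]
  have hT : ∀ g h : G, f g = f h → g • t = h • t := by
    intro g h hgh
    have h1 : (h⁻¹ * g) • t = t := ht _ (by rw [hf, hinv, hgh, neg_add_cancel])
    rwa [mul_smul, inv_smul_eq_iff] at h1
  let T : ZMod p → Ω := fun j => (τ ^ j.val) • t
  have hTg : ∀ (g : G) (j : ZMod p), g • T j = T (f g + j) := by
    intro g j
    change g • (τ ^ j.val) • t = (τ ^ (f g + j).val) • t
    rw [← mul_smul]
    apply hT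
    rw [hf, hpow, hpow, ZMod.natCast_val, ZMod.natCast_val, ZMod.cast_id, ZMod.cast_id]
  let R : ZMod p → Ω := fun i => ∑ j : ZMod p, ζ ^ (-(i * j)).val * T j
  have hR : ∀ (g : G) (i : ZMod p), g • R i = ζ ^ (i * f g).val * R i := by
    intro g i
    simp only [R]
    rw [Finset.smul_sum, Finset.mul_sum]
    rw [← Equiv.sum_comp (Equiv.addLeft (f g)) (fun j : ZMod p => ζ ^ (i * f g).val *
      (ζ ^ (-(i * j)).val * T j))]
    refine Finset.sum_congr rfl fun j _ => ?_
    rw [smul_mul', smul_pow', D.fixζ, hTg, Equiv.coe_addLeft, ← mul_assoc, ← chi_add D.prim]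
    congr 3
    ring
  have hsum : ∑ i : ZMod p, R i = p * t := by
    simp only [R]
    rw [Finset.sum_comm]
    have h4 : ∀ j : ZMod p, ∑ i : ZMod p, ζ ^ (-(i * j)).val * T j =
        if j = 0 then (p : Ω) * t else 0 := by
      intro j
      rw [← Finset.sum_mul]
      have h6 := AddChar.sum_mulShift (-j) (AddChar.zmodChar_primitive_of_primitive_root p D.prim)
      simp only [AddChar.zmodChar_apply, mul_neg] at h6
      rw [h6, ZMod.card]
      by_cases hj : j = 0
      · subst hj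
        have h7 : T 0 = t := by simp [T]
        simp [h7]
      · simp [hj]
    rw [Finset.sum_congr rfl fun j _ => h4 j, Finset.sum_ite_eq' Finset.univ (0 : ZMod p)]
    simp
  obtain ⟨i, hi0, hi⟩ : ∃ i : ZMod p, i ≠ 0 ∧ R i ≠ 0 := by
    by_contra hcon
    push Not at hcon
    have h1 : R 0 = p * t := by
      rw [← hsum]
      exact (Finset.sum_eq_single (0 : ZMod p) (fun b _ hb => hcon b hb) (by simp)).symm
    have h2 := hR σ 0
    rw [zero_mul, ZMod.val_zero, pow_zero, one_mul, h1, smul_mul', smul_natCast_field] at h2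
    exact hσ (mul_left_cancel₀ D.p_ne_zero h2)
  have hpow2 : ∀ (i : ℕ) (a : ZMod p), (ζ ^ a.val) ^ i = ζ ^ ((i : ZMod p) * a).val := by
    intro i a
    induction i with
    | zero => simp
    | succ n ih => rw [pow_succ, ih, ← chi_add D.prim]; push_cast; ring_nf
  have hβ : ∀ g : G, g • (R i ^ (i⁻¹).val) = ζ ^ (f g).val * R i ^ (i⁻¹).val := by
    intro g
    rw [smul_pow', hR, mul_pow, hpow2, ZMod.natCast_val, ZMod.cast_id, ← mul_assoc,
      inv_mul_cancel₀ hi0, one_mul]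
  refine ⟨(R i ^ (i⁻¹).val) ^ p, fun g => ?_, pow_ne_zero _ (pow_ne_zero _ hi), _, rfl, hβ⟩
  rw [smul_pow', hβ, mul_pow, ← pow_mul, mul_comm _ p, pow_mul, D.prim.pow_eq_one, one_pow,
    one_mul]

/-- **F4 + F5**: if `f : G → ℤ/p` is nonzero, `θ` is integral with stabiliser inside `ker f`,
all differences `g θ - θ ≠ 0` have valuation at least `v π`, and the `ker f`-orbit of `θ` has `N`
elements, then the Kummer break `s` of `f` satisfies `p m + 1 ≤ s + p N`. -/
theorem Data.break_of_orbit [IsAlgClosed Ω] (D : Data v G p m π ζ) {f : G → ZMod p}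
    (hf : ∀ g h, f (g * h) = f g + f h) {σ : G} (hσ : f σ ≠ 0) {θ : Ω} (hθ : v θ ≤ 1)
    (O : Finset Ω) (hO : ∀ y, y ∈ O ↔ ∃ h : G, f h = 0 ∧ h • θ = y)
    (hstab : ∀ g : G, g • θ = θ → f g = 0)
    (hlow : ∀ g : G, g • θ ≠ θ → v π ≤ v (g • θ - θ)) :
    (BreakZero v G π ζ f ∧ p * m + 1 ≤ p * O.card) ∨
      ∃ s, BreakPos v G m π ζ s f ∧ p * m + 1 ≤ s + p * O.card := by
  have hone : f 1 = 0 := by have h := hf 1 1; rw [mul_one] at h; exact left_eq_add.mp h
  have hinv : ∀ g : G, f g⁻¹ = - f g := by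
    intro g
    have h := hf g g⁻¹
    rw [mul_inv_cancel, hone] at h
    exact (neg_eq_of_add_eq_zero_right h.symm).symm
  obtain ⟨t, ht1, ht2, ht3⟩ := exists_coeff (v := v) (ϖ := π) D.inv {g : G | f g = 0} hone
    (fun g h hg hh => by
      change f (g * h) = 0; change f g = 0 at hg; change f h = 0 at hh
      rw [hf, hg, hh, add_zero])
    (fun g hg => by
      change f g⁻¹ = 0; change f g = 0 at hg
      rw [hinv, hg, neg_zero])
    hθ O hO hstab hlow (σ := σ) hσ
  have hσt : σ • t ≠ t := by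
    intro h
    rw [h, sub_self, map_zero, nonpos_iff_eq_zero] at ht3
    exact pow_ne_zero _ D.π0 ht3
  obtain ⟨α, hα⟩ := D.exists_gen hf ht2 hσt
  have h1 : v π ^ (p * O.card) ≤ v (σ • t - t) ^ p := by
    rw [mul_comm, pow_mul]
    exact pow_le_pow_left₀ zero_le ht3 p
  rcases D.normal_form hσ hα with h2 | ⟨s, h2⟩
  · left
    exact ⟨h2, D.pow_le.mp (h1.trans (D.ineq_zero h2 ht1 ht2 σ))⟩
  · right
    refine ⟨s, h2, D.pow_le.mp ?_⟩
    rw [add_comm s, pow_add]
    exact (mul_le_mul' h1 le_rfl).trans (D.ineq_pos h2 ht1 ht2 σ)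

end Fermat.Agent.TWP.Flat.Kummer
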