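import Mathlib
import Fermat.Agent.TWP.Flat.RamIneq

/-!
# Leading coefficients of Kummer generators, equivariance, and counting
-/

set_option autoImplicit false
set_option linter.unusedVariables false
set_option linter.unusedSectionVars false

open Polynomial

namespace Fermat.Agent.TWP.Flat.Kummer

section basic

variable {Ω : Type} [Field Ω] {Γ : Type} [LinearOrderedCommGroupWithZero Γ]
  {v : Valuation Ω Γ} {G : Type} [Group G] [MulSemiringAction G Ω] {p m : ℕ} {π ζ : Ω}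

theorem chi_mul [Fact p.Prime] (hζ : IsPrimitiveRoot ζ p) (i : ℕ) (a : ZMod p) :
    (ζ ^ a.val) ^ i = ζ ^ ((i : ZMod p) * a).val := by
  induction i with
  | zero => simp
  | succ n ih => rw [pow_succ, ih, ← chi_add hζ]; push_cast; ring_nf

namespace Data

theorem gen_zero (D : Data v G p m π ζ) : IsGen G ζ (fun _ => (0 : ZMod p)) (1 : Ω) :=
  ⟨fun g => smul_one g, one_ne_zero, 1, one_pow p, fun g => by rw [smul_one]; simp⟩

theorem gen_add (D : Data v G p m π ζ) {f f' : G → ZMod p} {α α' : Ω} (h : IsGen G ζ f α)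
    (h' : IsGen G ζ f' α') : IsGen G ζ (fun g => f g + f' g) (α * α') := by
  have : Fact p.Prime := ⟨D.hp⟩
  obtain ⟨h1, h2, β, h3, h4⟩ := h
  obtain ⟨h1', h2', β', h3', h4'⟩ := h'
  refine ⟨fun g => by rw [smul_mul', h1, h1'], mul_ne_zero h2 h2', β * β',
    by rw [mul_pow, h3, h3'], fun g => ?_⟩
  rw [smul_mul', h4, h4', chi_add D.prim]; ring

theorem gen_nsmul (D : Data v G p m π ζ) {f : G → ZMod p} {α : Ω} (h : IsGen G ζ f α) (n : ℕ) :
    IsGen G ζ (fun g => (n : ZMod p) * f g) (α ^ n) := by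
  have : Fact p.Prime := ⟨D.hp⟩
  obtain ⟨h1, h2, β, h3, h4⟩ := h
  refine ⟨fun g => by rw [smul_pow', h1], pow_ne_zero _ h2, β ^ n,
    by rw [← h3]; ring, fun g => ?_⟩
  rw [smul_pow', h4, mul_pow, chi_mul D.prim]

/-- Two generators of the same character differ by a `p`-th power. -/
theorem gen_ratio (D : Data v G p m π ζ) {f : G → ZMod p} {α α' : Ω} (h : IsGen G ζ f α)
    (h' : IsGen G ζ f α') : ∃ γ : Ω, (∀ g : G, g • γ = γ) ∧ γ ≠ 0 ∧ α' = α * γ ^ p := by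
  obtain ⟨h1, h2, β, h3, h4⟩ := h
  obtain ⟨h1', h2', β', h3', h4'⟩ := h'
  have hβ : β ≠ 0 := by
    rintro rfl; rw [zero_pow D.hp.ne_zero] at h3; exact h2 h3.symm
  have hβ' : β' ≠ 0 := by
    rintro rfl; rw [zero_pow D.hp.ne_zero] at h3'; exact h2' h3'.symm
  have hz : ∀ a : ZMod p, ζ ^ a.val ≠ 0 := fun a => pow_ne_zero _ (D.prim.ne_zero D.hp.ne_zero)
  refine ⟨β' / β, fun g => ?_, div_ne_zero hβ' hβ, ?_⟩
  · rw [div_eq_mul_inv, smul_mul', smul_inv_field, h4, h4', mul_inv]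
    have := hz (f g)
    field_simp
  · rw [div_pow, h3, h3', mul_div_cancel₀ _ h2]

theorem gen_trivial (D : Data v G p m π ζ) {f : G → ZMod p} (hf : ∀ g, f g = 0) {α : Ω}
    (h : IsGen G ζ f α) : ∃ γ : Ω, (∀ g : G, g • γ = γ) ∧ γ ≠ 0 ∧ α = γ ^ p := by
  have h0 : f = fun _ => 0 := funext hf
  subst h0
  obtain ⟨γ, h1, h2, h3⟩ := D.gen_ratio D.gen_zero h
  exact ⟨γ, h1, h2, by rw [h3, one_mul]⟩

/-- A `p`-th power `γ^p` (`γ ∈ K`) with `v (γ^p - 1) = v π ^ s`, `s < p m`, has `p ∣ s`. -/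
theorem dvd_of_pow (D : Data v G p m π ζ) {γ : Ω} (hγ : ∀ g : G, g • γ = γ) {s : ℕ}
    (hs : s < p * m) (h : v (γ ^ p - 1) = v π ^ s) : p ∣ s := by
  have : Fact p.Prime := ⟨D.hp⟩
  have h1 : v (γ - 1) ^ p = v π ^ s := by
    rw [← h]
    refine v_sub_one_pow v D.prim γ ?_
    rw [h, D.v_zeta, ← pow_mul, mul_comm]
    exact D.pow_lt.mpr hs
  have h0 : γ - 1 ≠ 0 := by
    intro h0
    rw [h0, map_zero, zero_pow D.hp.ne_zero] at h1
    exact pow_ne_zero _ D.π0 h1.symm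
  obtain ⟨n, hn⟩ := D.disc (γ - 1) (fun g => by rw [smul_sub, smul_one, hγ]) h0
  rw [hn, ← zpow_natCast, ← zpow_natCast, ← zpow_mul, D.zpow_inj] at h1
  exact Int.natCast_dvd_natCast.mp ⟨n, by rw [← h1, mul_comm]⟩

end Data

/-- `f` has a Kummer generator `≡ 1 + π^s ξ` modulo higher terms. -/
def HasLC (v : Valuation Ω Γ) (G : Type) [Group G] [MulSemiringAction G Ω] (π ζ : Ω) (s : ℕ)
    (f : G → ZMod p) (ξ : Ω) : Prop :=
  ∃ α : Ω, IsGen G ζ f α ∧ v (α - 1 - π ^ s * ξ) < v π ^ s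

theorem HasLC.congr {s : ℕ} {f : G → ZMod p} {ξ ξ' : Ω} (h : HasLC v G π ζ s f ξ)
    (hξ : v (ξ - ξ') < 1) (hπ : v π ≠ 0) : HasLC v G π ζ s f ξ' := by
  obtain ⟨α, h1, h2⟩ := h
  refine ⟨α, h1, ?_⟩
  have h3 : α - 1 - π ^ s * ξ' = (α - 1 - π ^ s * ξ) + π ^ s * (ξ - ξ') := by ring
  rw [h3]
  refine (v.map_add _ _).trans_lt (max_lt h2 ?_)
  rw [map_mul, map_pow]
  exact mul_lt_of_lt_one_right (pow_pos (zero_lt_iff.mpr hπ) _) hξ

namespace Data

theorem U_of_hasLC (D : Data v G p m π ζ) {s : ℕ} {f : G → ZMod p} {ξ : Ω} (hξ : v ξ ≤ 1)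
    (h : HasLC v G π ζ s f ξ) : U v G π ζ s f := by
  obtain ⟨α, h1, h2⟩ := h
  refine ⟨α, h1, ?_⟩
  have h3 : α - 1 = (α - 1 - π ^ s * ξ) + π ^ s * ξ := by ring
  rw [h3]
  refine (v.map_add _ _).trans (max_le h2.le ?_)
  rw [map_mul, map_pow]
  exact mul_le_of_le_one_right' hξ

theorem U_succ_of_hasLC (D : Data v G p m π ζ) {s : ℕ} {f : G → ZMod p} {ξ : Ω} (hξ : v ξ < 1)
    (h : HasLC v G π ζ s f ξ) : U v G π ζ (s + 1) f := by
  obtain ⟨α, h1, h2⟩ := h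
  refine ⟨α, h1, D.le_of_lt (fun g => by rw [smul_sub, smul_one, h1.1]) ?_⟩
  have h3 : α - 1 = (α - 1 - π ^ s * ξ) + π ^ s * ξ := by ring
  rw [h3]
  refine (v.map_add _ _).trans_lt (max_lt h2 ?_)
  rw [map_mul, map_pow]
  exact mul_lt_of_lt_one_right (pow_pos D.vpos _) hξ

theorem exists_hasLC (D : Data v G p m π ζ) {s : ℕ} {f : G → ZMod p}
    (h : U v G π ζ s f) : ∃ ξ : Ω, v ξ ≤ 1 ∧ HasLC v G π ζ s f ξ := by
  obtain ⟨α, h1, h2⟩ := h
  have hπ : π ^ s ≠ 0 := pow_ne_zero _ D.π_ne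
  refine ⟨(α - 1) / π ^ s, ?_, α, h1, ?_⟩
  · rw [map_div₀, map_pow]
    exact div_le_one_of_le₀ h2 zero_le
  · rw [mul_div_cancel₀ _ hπ, sub_self, map_zero]
    exact pow_pos D.vpos _

theorem exists_hasLC_of_break (D : Data v G p m π ζ) {s : ℕ} {f : G → ZMod p}
    (h : BreakPos v G m π ζ s f) : ∃ ξ : Ω, v ξ = 1 ∧ HasLC v G π ζ s f ξ := by
  obtain ⟨-, -, -, α, h1, h2⟩ := h
  have hπ : π ^ s ≠ 0 := pow_ne_zero _ D.π_ne
  refine ⟨(α - 1) / π ^ s, ?_, α, h1, ?_⟩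
  · rw [map_div₀, map_pow, h2, div_self (pow_ne_zero _ D.π0)]
  · rw [mul_div_cancel₀ _ hπ, sub_self, map_zero]
    exact pow_pos D.vpos _

theorem hasLC_zero (D : Data v G p m π ζ) (s : ℕ) :
    HasLC v G π ζ s (fun _ => (0 : ZMod p)) 0 :=
  ⟨1, D.gen_zero, by rw [mul_zero, sub_self, sub_zero, map_zero]; exact pow_pos D.vpos _⟩

theorem hasLC_add (D : Data v G p m π ζ) {s : ℕ} (hs : 0 < s) {f f' : G → ZMod p} {ξ ξ' : Ω}
    (hξ : v ξ ≤ 1) (hξ' : v ξ' ≤ 1)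
    (h : HasLC v G π ζ s f ξ) (h' : HasLC v G π ζ s f' ξ') :
    HasLC v G π ζ s (fun g => f g + f' g) (ξ + ξ') := by
  obtain ⟨α, h1, h2⟩ := h
  obtain ⟨α', h1', h2'⟩ := h'
  refine ⟨α * α', D.gen_add h1 h1', ?_⟩
  have h3 : α * α' - 1 - π ^ s * (ξ + ξ') = (α - 1 - π ^ s * ξ) * α' +
      (α' - 1 - π ^ s * ξ') + (π ^ s * ξ) * ((α' - 1 - π ^ s * ξ') + π ^ s * ξ') := by ring
  have hπs : v π ^ s < 1 := pow_lt_one₀ zero_le D.π1 hs.ne'
  have h4 : v (π ^ s * ξ) ≤ v π ^ s := by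
    rw [map_mul, map_pow]; exact mul_le_of_le_one_right' hξ
  have h4' : v (π ^ s * ξ') ≤ v π ^ s := by
    rw [map_mul, map_pow]; exact mul_le_of_le_one_right' hξ'
  have h5 : v ((α' - 1 - π ^ s * ξ') + π ^ s * ξ') < 1 :=
    (v.map_add _ _).trans_lt (max_lt (h2'.trans hπs) (h4'.trans_lt hπs))
  have h6 : v α' = 1 := by
    refine v_eq_one_of_sub_one_lt ?_
    have h7 : α' - 1 = (α' - 1 - π ^ s * ξ') + π ^ s * ξ' := by ring
    rw [h7]; exact h5
  rw [h3]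
  refine (v.map_add _ _).trans_lt (max_lt ((v.map_add _ _).trans_lt (max_lt ?_ h2')) ?_)
  · rw [map_mul, h6, mul_one]; exact h2
  · rw [map_mul]
    exact (mul_le_mul' h4 le_rfl).trans_lt (mul_lt_of_lt_one_right (pow_pos D.vpos _) h5)

theorem hasLC_nsmul (D : Data v G p m π ζ) {s : ℕ} (hs : 0 < s) {f : G → ZMod p} {ξ : Ω}
    (hξ : v ξ ≤ 1) (h : HasLC v G π ζ s f ξ) (n : ℕ) :
    HasLC v G π ζ s (fun g => (n : ZMod p) * f g) (n * ξ) := by
  induction n with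
  | zero => simpa using D.hasLC_zero s
  | succ n ih =>
    have h1 : v ((n : Ω) * ξ) ≤ 1 := by
      rw [map_mul]; exact mul_le_one₀ (v_natCast_le v n) zero_le hξ
    have h2 := D.hasLC_add hs h1 hξ ih h
    convert h2 using 1
    · funext g; push_cast; ring
    · push_cast; ring

/-- Uniqueness of the leading coefficient: for `p ∤ s < p m` the zero character has leading
coefficient `0`. -/
theorem lc_zero (D : Data v G p m π ζ) {s : ℕ} (hs : s < p * m)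
    (hps : ¬ p ∣ s) {f : G → ZMod p} (hf : ∀ g, f g = 0) {ξ : Ω} (hξ : v ξ ≤ 1)
    (h : HasLC v G π ζ s f ξ) : v ξ < 1 := by
  by_contra hcon
  have hξ1 : v ξ = 1 := le_antisymm hξ (not_lt.mp hcon)
  obtain ⟨α, h1, h2⟩ := h
  have h3 : v (α - 1) = v π ^ s := by
    have h4 : α - 1 = (α - 1 - π ^ s * ξ) + π ^ s * ξ := by ring
    rw [h4, Valuation.map_add_eq_of_lt_right]
    · rw [map_mul, map_pow, hξ1, mul_one]
    · rw [map_mul, map_pow, hξ1, mul_one]; exact h2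
  obtain ⟨γ, hγ, -, rfl⟩ := D.gen_trivial hf h1
  exact hps (D.dvd_of_pow hγ hs h3)

theorem natCast_val_neg_one (p : ℕ) [Fact p.Prime] (x : ZMod p) :
    (((p - 1 : ℕ) : ZMod p)) * x = - x := by
  have h1 : 1 ≤ p := (Fact.out (p := p.Prime)).pos
  rw [Nat.cast_sub h1]; simp

/-- Uniqueness of leading coefficients. -/
theorem lc_unique (D : Data v G p m π ζ) {s : ℕ} (hs0 : 0 < s) (hs : s < p * m)
    (hps : ¬ p ∣ s) {f : G → ZMod p} {ξ ξ' : Ω} (hξ : v ξ ≤ 1) (hξ' : v ξ' ≤ 1)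
    (h : HasLC v G π ζ s f ξ) (h' : HasLC v G π ζ s f ξ') : v (ξ - ξ') < 1 := by
  have : Fact p.Prime := ⟨D.hp⟩
  have h1 := D.hasLC_nsmul hs0 hξ' h' (p - 1)
  have h2 : v (((p - 1 : ℕ) : Ω) * ξ') ≤ 1 := by
    rw [map_mul]; exact mul_le_one₀ (v_natCast_le v _) zero_le hξ'
  have h3 := D.hasLC_add hs0 hξ h2 h h1
  have h4 : v (ξ + ((p - 1 : ℕ) : Ω) * ξ') ≤ 1 := (v.map_add _ _).trans (max_le hξ h2)
  have h5 := D.lc_zero hs hps (fun g => by rw [natCast_val_neg_one]; ring) h4 h3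
  have h6 : ξ - ξ' = (ξ + ((p - 1 : ℕ) : Ω) * ξ') - p * ξ' := by
    rw [Nat.cast_sub D.hp.pos]; push_cast; ring
  rw [h6]
  refine (v.map_sub _ _).trans_lt (max_lt h5 ?_)
  have hvp : v (p : Ω) < 1 := by
    rw [D.vp]
    refine pow_lt_one₀ zero_le D.π1 (Nat.mul_pos ?_ D.hm).ne'
    have := D.hp.two_le; omega
  rw [map_mul]
  exact mul_lt_one_of_lt_of_le hvp hξ'

/-- A character with break `s` has no generator in `U^{s+1}`. -/
theorem not_U_of_break (D : Data v G p m π ζ) {s : ℕ} {f : G → ZMod p}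
    (h : BreakPos v G m π ζ s f) {s' : ℕ} (hs' : s < s') (hU : U v G π ζ s' f) : False := by
  obtain ⟨ξ, hξ, hξ2⟩ := D.exists_hasLC_of_break h
  obtain ⟨α, h1, h2⟩ := hU
  have h3 : HasLC v G π ζ s f 0 := by
    refine ⟨α, h1, ?_⟩
    rw [mul_zero, sub_zero]
    exact h2.trans_lt (D.pow_lt.mpr hs')
  have h4 := D.lc_unique h.1 h.2.1 h.2.2.1 hξ.le (by rw [map_zero]; exact zero_le) hξ2 h3
  rw [sub_zero, hξ] at h4
  exact lt_irrefl _ h4

theorem U_mono (D : Data v G p m π ζ) {s s' : ℕ} (h : s ≤ s') {f : G → ZMod p}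
    (hU : U v G π ζ s' f) : U v G π ζ s f := by
  obtain ⟨α, h1, h2⟩ := hU
  exact ⟨α, h1, h2.trans (D.pow_le.mpr h)⟩

theorem U_of_break (D : Data v G p m π ζ) {s : ℕ} {f : G → ZMod p}
    (h : BreakPos v G m π ζ s f) : U v G π ζ s f := by
  obtain ⟨-, -, -, α, h1, h2⟩ := h
  exact ⟨α, h1, h2.le⟩

theorem break_unique (D : Data v G p m π ζ) {s s' : ℕ} {f : G → ZMod p}
    (h : BreakPos v G m π ζ s f) (h' : BreakPos v G m π ζ s' f) : s = s' := by
  rcases lt_trichotomy s s' with h1 | h1 | h1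
  · exact (D.not_U_of_break h h1 (D.U_of_break h')).elim
  · exact h1
  · exact (D.not_U_of_break h' h1 (D.U_of_break h)).elim

theorem break_ne_zero (D : Data v G p m π ζ) {s : ℕ} {f : G → ZMod p}
    (h : BreakPos v G m π ζ s f) : ∃ g, f g ≠ 0 := by
  by_contra hcon
  push Not at hcon
  obtain ⟨ξ, hξ, hξ2⟩ := D.exists_hasLC_of_break h
  have := D.lc_zero h.2.1 h.2.2.1 hcon hξ.le hξ2
  rw [hξ] at this
  exact lt_irrefl _ this

end Data

end basic

/-! ### Counting -/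

section count

variable {Ω : Type} [Field Ω] {Γ : Type} [LinearOrderedCommGroupWithZero Γ]
  {v : Valuation Ω Γ} {G : Type} [Group G] [MulSemiringAction G Ω] {p m : ℕ} {π ζ : Ω}

/-- Residue of an integral element (junk value `0` for non-integral elements). -/
noncomputable def Red (v : Valuation Ω Γ) (x : Ω) : IsLocalRing.ResidueField v.valuationSubring :=
  open Classical in
  if hx : v x ≤ 1 then IsLocalRing.residue _ (⟨x, hx⟩ : v.valuationSubring) else 0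

theorem Red_of (v : Valuation Ω Γ) {x : Ω} (hx : v x ≤ 1) :
    Red v x = IsLocalRing.residue _ (⟨x, hx⟩ : v.valuationSubring) := by
  unfold Red; rw [dif_pos hx]

theorem Red_eq_zero_iff (v : Valuation Ω Γ) {x : Ω} (hx : v x ≤ 1) :
    Red v x = 0 ↔ v x < 1 := by
  rw [Red_of v hx, IsLocalRing.residue_eq_zero_iff, Valuation.mem_maximalIdeal_iff]

theorem Red_mul (v : Valuation Ω Γ) {x y : Ω} (hx : v x ≤ 1) (hy : v y ≤ 1) :
    Red v (x * y) = Red v x * Red v y := by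
  have hxy : v (x * y) ≤ 1 := by rw [map_mul]; exact mul_le_one₀ hx zero_le hy
  rw [Red_of v hx, Red_of v hy, Red_of v hxy, ← map_mul]; rfl

theorem Red_sub (v : Valuation Ω Γ) {x y : Ω} (hx : v x ≤ 1) (hy : v y ≤ 1) :
    Red v (x - y) = Red v x - Red v y := by
  have hxy : v (x - y) ≤ 1 := (v.map_sub _ _).trans (max_le hx hy)
  rw [Red_of v hx, Red_of v hy, Red_of v hxy, ← map_sub]; rfl

theorem Red_add (v : Valuation Ω Γ) {x y : Ω} (hx : v x ≤ 1) (hy : v y ≤ 1) :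
    Red v (x + y) = Red v x + Red v y := by
  have hxy : v (x + y) ≤ 1 := (v.map_add _ _).trans (max_le hx hy)
  rw [Red_of v hx, Red_of v hy, Red_of v hxy, ← map_add]; rfl

theorem Red_pow (v : Valuation Ω Γ) {x : Ω} (hx : v x ≤ 1) (n : ℕ) :
    Red v (x ^ n) = Red v x ^ n := by
  have hxy : v (x ^ n) ≤ 1 := by rw [map_pow]; exact pow_le_one₀ zero_le hx
  rw [Red_of v hx, Red_of v hxy, ← map_pow]; rfl

theorem Red_eq_iff (v : Valuation Ω Γ) {x y : Ω} (hx : v x ≤ 1) (hy : v y ≤ 1) :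
    Red v x = Red v y ↔ v (x - y) < 1 := by
  rw [← sub_eq_zero, ← Red_sub v hx hy, Red_eq_zero_iff v ((v.map_sub _ _).trans (max_le hx hy))]

/-- **Counting**: a finite group of characters all of whose nonzero elements have break `s`, and
whose leading coefficients satisfy `ξ^q ≡ C ξ`, has at most `q` elements. -/
theorem Data.card_le (D : Data v G p m π ζ) {s q : ℕ} (hq : 1 < q) {C : Ω} (hC : v C ≤ 1)
    (W : Finset (G → ZMod p)) (hsub : ∀ f ∈ W, ∀ f' ∈ W, (fun g => f g - f' g) ∈ W)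
    (hb : ∀ f ∈ W, (∃ g, f g ≠ 0) → BreakPos v G m π ζ s f)
    (heq : ∀ f ∈ W, (∃ g, f g ≠ 0) → ∀ ξ, v ξ ≤ 1 → HasLC v G π ζ s f ξ →
      v (ξ ^ q - C * ξ) < 1) :
    W.card ≤ q := by
  classical
  have : Fact p.Prime := ⟨D.hp⟩
  by_cases hne : ∃ f ∈ W, ∃ g, f g ≠ 0
  swap
  · push Not at hne
    have h1 : W ⊆ {0} := by
      intro f hf
      rw [Finset.mem_singleton]
      funext g; exact hne f hf g
    calc W.card ≤ ({0} : Finset (G → ZMod p)).card := Finset.card_le_card h1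
      _ = 1 := Finset.card_singleton _
      _ ≤ q := hq.le
  obtain ⟨f₀, hf₀, hf₀'⟩ := hne
  have hb₀ := hb f₀ hf₀ hf₀'
  have hs0 := hb₀.1
  have hsm := hb₀.2.1
  have hps := hb₀.2.2.1
  have hξ : ∀ f ∈ W, ∃ ξ : Ω, v ξ ≤ 1 ∧ HasLC v G π ζ s f ξ ∧ v (ξ ^ q - C * ξ) < 1 := by
    intro f hf
    by_cases h : ∃ g, f g ≠ 0
    · obtain ⟨ξ, h1, h2⟩ := D.exists_hasLC_of_break (hb f hf h)
      exact ⟨ξ, h1.le, h2, heq f hf h ξ h1.le h2⟩
    · push Not at h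
      have h0 : f = fun _ => 0 := funext h
      refine ⟨0, by rw [map_zero]; exact zero_le, ?_, ?_⟩
      · rw [h0]; exact D.hasLC_zero s
      · rw [zero_pow (by omega), mul_zero, sub_zero, map_zero]; exact zero_lt_one
  choose! ξ hξ1 hξ2 hξ3 using hξ
  let κ := IsLocalRing.ResidueField v.valuationSubring
  let P : Polynomial κ := X ^ q - Polynomial.C (Red v C) * X
  have hdeg : P.natDegree = q := by
    simp only [P]
    rw [natDegree_sub_eq_left_of_natDegree_lt]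
    · rw [natDegree_X_pow]
    · rw [natDegree_X_pow]
      exact (natDegree_C_mul_le _ _).trans_lt (by rw [natDegree_X]; exact hq)
  have hP0 : P ≠ 0 := by
    intro h0
    rw [h0, natDegree_zero] at hdeg
    omega
  have hmaps : ∀ f ∈ W, Red v (ξ f) ∈ P.roots.toFinset := by
    intro f hf
    rw [Multiset.mem_toFinset, mem_roots hP0, IsRoot.def]
    simp only [P]
    rw [eval_sub, eval_pow, eval_X, eval_mul, eval_C, eval_X]
    have h1 := hξ3 f hf
    have h2 : v (C * ξ f) ≤ 1 := by rw [map_mul]; exact mul_le_one₀ hC zero_le (hξ1 f hf)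
    have h3 : v (ξ f ^ q) ≤ 1 := by rw [map_pow]; exact pow_le_one₀ zero_le (hξ1 f hf)
    rw [← Red_eq_zero_iff v ((v.map_sub _ _).trans (max_le h3 h2)), Red_sub v h3 h2,
      Red_pow v (hξ1 f hf), Red_mul v hC (hξ1 f hf)] at h1
    exact h1
  have hinj : Set.InjOn (fun f => Red v (ξ f)) (W : Set (G → ZMod p)) := by
    intro f hf f' hf' hff
    simp only at hff
    rw [Finset.mem_coe] at hf hf'
    rw [Red_eq_iff v (hξ1 f hf) (hξ1 f' hf')] at hff
    by_contra hne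
    have hd : ∃ g, (fun g => f g - f' g) g ≠ 0 := by
      by_contra hcon
      push Not at hcon
      exact hne (funext fun g => sub_eq_zero.mp (hcon g))
    have hbd := hb _ (hsub f hf f' hf') hd
    have h1 := D.hasLC_nsmul hs0 (hξ1 f' hf') (hξ2 f' hf') (p - 1)
    have h2 : v (((p - 1 : ℕ) : Ω) * ξ f') ≤ 1 := by
      rw [map_mul]; exact mul_le_one₀ (v_natCast_le v _) zero_le (hξ1 f' hf')
    have h3 := D.hasLC_add hs0 (hξ1 f hf) h2 (hξ2 f hf) h1
    have h4 : v (ξ f + ((p - 1 : ℕ) : Ω) * ξ f') < 1 := by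
      have h6 : ξ f + ((p - 1 : ℕ) : Ω) * ξ f' = (ξ f - ξ f') + p * ξ f' := by
        rw [Nat.cast_sub D.hp.pos]; push_cast; ring
      rw [h6]
      refine (v.map_add _ _).trans_lt (max_lt hff ?_)
      have hvp : v (p : Ω) < 1 := by
        rw [D.vp]
        refine pow_lt_one₀ zero_le D.π1 (Nat.mul_pos ?_ D.hm).ne'
        have := D.hp.two_le; omega
      rw [map_mul]
      exact mul_lt_one_of_lt_of_le hvp (hξ1 f' hf')
    have h5 := D.U_succ_of_hasLC h4 h3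
    have h6 : (fun g => f g + ((p - 1 : ℕ) : ZMod p) * f' g) = fun g => f g - f' g := by
      funext g; rw [natCast_val_neg_one]; ring
    rw [h6] at h5
    exact D.not_U_of_break hbd (Nat.lt_succ_self s) h5
  calc W.card ≤ P.roots.toFinset.card := Finset.card_le_card_of_injOn _ hmaps hinj
    _ ≤ P.roots.card := Multiset.toFinset_card_le _
    _ ≤ P.natDegree := card_roots' P
    _ = q := hdeg

end count

/-! ### Equivariance

`τ : Ω ≃+* Ω` is an automorphism preserving `v` and normalising the action of `G`: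
`τ (g • x) = c g • τ x` for a bijection `c : G ≃ G`. -/

section equiv

variable {Ω : Type} [Field Ω] {Γ : Type} [LinearOrderedCommGroupWithZero Γ]
  {v : Valuation Ω Γ} {G : Type} [Group G] [MulSemiringAction G Ω]
  {p m : ℕ} {π ζ : Ω}

namespace Data

/-- Conjugation of Kummer generators. -/
theorem gen_conj (D : Data v G p m π ζ) {τ : Ω ≃+* Ω} {c : G ≃ G}
    (hc : ∀ (g : G) (x : Ω), τ (g • x) = c g • τ x) {w : ℕ} (hw : τ ζ = ζ ^ w)
    {f f' : G → ZMod p} (hf' : ∀ g : G, f' (c g) = w * f g) {α : Ω} (h : IsGen G ζ f α) :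
    IsGen G ζ f' (τ α) := by
  have : Fact p.Prime := ⟨D.hp⟩
  obtain ⟨h1, h2, β, h3, h4⟩ := h
  refine ⟨fun g => ?_, (map_ne_zero τ).mpr h2, τ β, by rw [← map_pow, h3],
    fun g => ?_⟩
  · obtain ⟨g', rfl⟩ := c.surjective g
    rw [← hc, h1]
  · obtain ⟨g', rfl⟩ := c.surjective g
    rw [← hc, h4, map_mul, map_pow, hw, hf', ← pow_mul, mul_comm w, pow_mul, chi_mul D.prim]

/-- Conjugation of leading coefficients. -/
theorem hasLC_conj (D : Data v G p m π ζ) {τ : Ω ≃+* Ω} {c : G ≃ G}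
    (hc : ∀ (g : G) (x : Ω), τ (g • x) = c g • τ x) (hv : ∀ x : Ω, v (τ x) = v x)
    {w : ℕ} (hw : τ ζ = ζ ^ w) {f f' : G → ZMod p}
    (hf' : ∀ g : G, f' (c g) = w * f g) {s : ℕ} {ξ : Ω}
    (h : HasLC v G π ζ s f ξ) : HasLC v G π ζ s f' ((τ π / π) ^ s * τ ξ) := by
  obtain ⟨α, h1, h2⟩ := h
  refine ⟨τ α, D.gen_conj hc hw hf' h1, ?_⟩
  have hπ : π ≠ 0 := D.π_ne
  have h3 : τ α - 1 - π ^ s * ((τ π / π) ^ s * τ ξ) = τ (α - 1 - π ^ s * ξ) := by
    rw [map_sub, map_sub, map_one, map_mul, map_pow, div_pow]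
    field_simp
  rw [h3, hv]
  exact h2

theorem v_theta (D : Data v G p m π ζ) {τ : Ω ≃+* Ω} (hv : ∀ x : Ω, v (τ x) = v x) :
    v (τ π / π) = 1 := by
  rw [map_div₀, hv, div_self D.π0]

/-- The cyclotomic character in terms of the tame character: `w ≡ θ^m`. -/
theorem cyc_eq_theta (D : Data v G p m π ζ) {τ : Ω ≃+* Ω} (hv : ∀ x : Ω, v (τ x) = v x)
    (htriv : ∀ x : Ω, v x ≤ 1 → v (τ x - x) < 1) {w : ℕ} (hw : τ ζ = ζ ^ w) :
    v ((w : Ω) - (τ π / π) ^ m) < 1 := by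
  have hπm : π ^ m ≠ 0 := pow_ne_zero _ D.π_ne
  have hζ1 : ζ - 1 ≠ 0 := by
    intro h0
    have h1 := D.v_zeta
    rw [h0, map_zero] at h1
    exact pow_ne_zero _ D.π0 h1.symm
  have hε : v ((ζ - 1) / π ^ m) = 1 := by
    rw [map_div₀, map_pow, D.v_zeta, div_self (pow_ne_zero _ D.π0)]
  have h1 := htriv ((ζ - 1) / π ^ m) hε.le
  have h2 : τ ((ζ - 1) / π ^ m) = (ζ ^ w - 1) / (τ π) ^ m := by
    rw [map_div₀, map_sub, map_one, hw, map_pow]
  rw [h2] at h1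
  -- `(ζ^w - 1)/(ζ - 1) = ∑ ζ^i ≡ w`
  have h3 : v ((∑ i ∈ Finset.range w, ζ ^ i) - w) < 1 := by
    have h4 : (∑ i ∈ Finset.range w, ζ ^ i) - (w : Ω) = ∑ i ∈ Finset.range w, (ζ ^ i - 1) := by
      rw [Finset.sum_sub_distrib]; simp
    rw [h4]
    have : Fact p.Prime := ⟨D.hp⟩
    refine v.map_sum_lt one_ne_zero fun i _ => ?_
    refine (v_zeta_pow_sub_one v D.prim i).trans_lt ?_
    rw [D.v_zeta]
    exact pow_lt_one₀ zero_le D.π1 D.hm.ne'
  have hτπ : τ π ≠ 0 := (map_ne_zero τ).mpr D.π_ne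
  have h5 : (w : Ω) - (τ π / π) ^ m = -((∑ i ∈ Finset.range w, ζ ^ i) - w) +
      ((ζ ^ w - 1) / (τ π) ^ m - (ζ - 1) / π ^ m) * ((τ π / π) ^ m / ((ζ - 1) / π ^ m)) := by
    have h6 : (∑ i ∈ Finset.range w, ζ ^ i) = (ζ ^ w - 1) / (ζ - 1) := by
      rw [eq_div_iff hζ1]
      exact geom_sum_mul ζ w
    rw [h6]
    have hτπm : (τ π) ^ m ≠ 0 := pow_ne_zero _ hτπ
    rw [div_pow]
    field_simp
    ring
  rw [h5]
  refine (v.map_add _ _).trans_lt (max_lt ?_ ?_)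
  · rw [Valuation.map_neg]; exact h3
  · rw [map_mul, map_div₀ v (_ ^ m), map_pow, D.v_theta hv, one_pow, hε, div_one, mul_one]
    exact h1

end Data

end equiv

end Fermat.Agent.TWP.Flat.Kummer
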