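import Mathlib
import Fermat.Agent.TWP.Flat.KummerGr

/-!
# Counting equivariant Kummer characters
-/

set_option autoImplicit false
set_option linter.unusedVariables false
set_option linter.unusedSectionVars false

open Polynomial

namespace Fermat.Agent.TWP.Flat.Kummer

variable {Ω : Type} [Field Ω] {Γ : Type} [LinearOrderedCommGroupWithZero Γ]
  {v : Valuation Ω Γ} {G : Type} [Group G] [MulSemiringAction G Ω]
  {p m : ℕ} {π ζ : Ω}

theorem arith_one {p s k : ℤ} (hp : 3 ≤ p) (hs : 3 ≤ s) (hsm : s < p * (p + 1))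
    (hk : s - 2 * p = (p ^ 2 - 1) * k) : k = 0 := by
  have hq : 0 ≤ p ^ 2 - 1 := by nlinarith
  rcases lt_trichotomy k 0 with h | h | h
  · have h1 : k ≤ -1 := by omega
    have h2 := mul_le_mul_of_nonneg_left h1 hq
    nlinarith
  · exact h
  · have h1 : 1 ≤ k := by omega
    have h2 := mul_le_mul_of_nonneg_left h1 hq
    nlinarith

theorem arith_two {p s k : ℤ} (hp : 3 ≤ p) (hs : 3 ≤ s) (hsm : s < p * (p + 1))
    (hk : s - 2 = (p ^ 2 - 1) * k) : k = 1 := by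
  have hq : 0 ≤ p ^ 2 - 1 := by nlinarith
  rcases lt_trichotomy k 1 with h | h | h
  · have h1 : k ≤ 0 := by omega
    have h2 := mul_le_mul_of_nonneg_left h1 hq
    nlinarith
  · exact h
  · have h1 : 2 ≤ k := by omega
    have h2 := mul_le_mul_of_nonneg_left h1 hq
    nlinarith

namespace Data

theorem exists_w (D : Data v G p m π ζ) (τ : Ω ≃+* Ω) : ∃ w : ℕ, τ ζ = ζ ^ w := by
  have : NeZero p := ⟨D.hp.ne_zero⟩
  obtain ⟨w, -, hw⟩ := D.prim.eq_pow_of_pow_eq_one (ξ := τ ζ)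
    (by rw [← map_pow, D.prim.pow_eq_one, map_one])
  exact ⟨w, hw.symm⟩

theorem vp_lt_one (D : Data v G p m π ζ) : v (p : Ω) < 1 := by
  rw [D.vp]
  refine pow_lt_one₀ zero_le D.π1 (Nat.mul_pos ?_ D.hm).ne'
  have := D.hp.two_le; omega

theorem red_natCast_eq (D : Data v G p m π ζ) {a b : ℕ} (h : (a : ZMod p) = b) :
    v ((a : Ω) - b) < 1 := by
  rw [ZMod.natCast_eq_natCast_iff] at h
  obtain ⟨c, hc⟩ := h.dvd
  have h1 : (a : Ω) - b = -(p * (c : Ω)) := by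
    have h2 : ((b : ℤ) - a : ℤ) = p * c := hc
    have h3 : (b : Ω) - a = p * c := by exact_mod_cast congrArg (fun z : ℤ => (z : Ω)) h2
    linear_combination -h3
  rw [h1, Valuation.map_neg, map_mul]
  refine mul_lt_one_of_lt_of_le D.vp_lt_one ?_
  rcases Int.natAbs_eq c with h4 | h4
  · rw [h4, Int.cast_natCast]; exact v_natCast_le v _
  · rw [h4, Int.cast_neg, Valuation.map_neg, Int.cast_natCast]; exact v_natCast_le v _

theorem unit_ratio (D : Data v G p m π ζ) {τ : Ω ≃+* Ω}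
    (htriv : ∀ x : Ω, v x ≤ 1 → v (τ x - x) < 1) {x : Ω} (hx : v x ≤ 1) :
    Red v (τ x) = Red v x := by
  have h1 : v (τ x) ≤ 1 := by
    have h2 : τ x = (τ x - x) + x := by ring
    rw [h2]; exact (v.map_add _ _).trans (max_le (htriv x hx).le hx)
  rw [Red_eq_iff v h1 hx]
  exact htriv x hx

theorem red_theta_ne_zero (D : Data v G p m π ζ) {τ : Ω ≃+* Ω} (hv : ∀ x : Ω, v (τ x) = v x) :
    Red v (τ π / π) ≠ 0 := by
  rw [Ne, Red_eq_zero_iff v (D.v_theta hv).le, D.v_theta hv]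
  exact lt_irrefl _

theorem red_one (v : Valuation Ω Γ) : Red v (1 : Ω) = 1 := by
  rw [Red_of v (by rw [map_one] : v (1 : Ω) ≤ 1)]
  exact map_one _

/-- Exponent congruence from the exact order of the tame character. -/
theorem dvd_sub_of_pow_eq (D : Data v G p m π ζ) {τ : Ω ≃+* Ω} (hv : ∀ x : Ω, v (τ x) = v x) {e : ℕ}
    (hord : ∀ n : ℕ, v ((τ π / π) ^ n - 1) < 1 → e ∣ n) {a b : ℕ}
    (h : Red v (τ π / π) ^ a = Red v (τ π / π) ^ b) : (e : ℤ) ∣ (a : ℤ) - b := by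
  have hne := D.red_theta_ne_zero hv
  have hvθ := D.v_theta hv
  have key : ∀ n : ℕ, Red v (τ π / π) ^ n = 1 → e ∣ n := by
    intro n hn
    apply hord
    rw [← Red_pow v hvθ.le, ← red_one v, Red_eq_iff v] at hn
    · exact hn
    · rw [map_pow, hvθ, one_pow]
    · rw [map_one]
  rcases le_total b a with hab | hab
  · obtain ⟨k, rfl⟩ := Nat.exists_eq_add_of_le hab
    rw [pow_add] at h
    have h1 : Red v (τ π / π) ^ k = 1 :=
      mul_left_cancel₀ (pow_ne_zero b hne) (by rw [h, mul_one])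
    obtain ⟨c, hc⟩ := key k h1
    exact ⟨c, by rw [hc]; push_cast; ring⟩
  · obtain ⟨k, rfl⟩ := Nat.exists_eq_add_of_le hab
    rw [pow_add] at h
    have h1 : Red v (τ π / π) ^ k = 1 :=
      mul_left_cancel₀ (pow_ne_zero a hne) (by rw [← h, mul_one])
    obtain ⟨c, hc⟩ := key k h1
    exact ⟨-c, by rw [hc]; push_cast; ring⟩

/-- The nonzero characters fixed by a tame generator have break exactly `m`. -/
theorem break_of_fixed [IsAlgClosed Ω] (D : Data v G p m π ζ) (hp3 : 3 ≤ p)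
    {τ : Ω ≃+* Ω} {c : G ≃ G} (hc : ∀ (g : G) (x : Ω), τ (g • x) = c g • τ x)
    (hv : ∀ x : Ω, v (τ x) = v x) (htriv : ∀ x : Ω, v x ≤ 1 → v (τ x - x) < 1)
    (hord : ∀ n : ℕ, v ((τ π / π) ^ n - 1) < 1 → (p - 1) * m ∣ n)
    {f : G → ZMod p} (hf : ∃ g, f g ≠ 0) (hgen : ∃ α : Ω, IsGen G ζ f α)
    (hfτ : ∀ g, f (c g) = f g) : BreakPos v G m π ζ m f := by
  have : Fact p.Prime := ⟨D.hp⟩
  obtain ⟨w, hw⟩ := D.exists_w τ
  obtain ⟨g, hg⟩ := hf
  obtain ⟨α, hα⟩ := hgen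
  have hm := D.hm
  have hf' : ∀ g : G, (fun g => (w : ZMod p) * f g) (c g) = w * f g := by
    intro g; simp only [hfτ]
  have hcyc := D.cyc_eq_theta hv htriv hw
  have hvθ := D.v_theta hv
  have hvw : v (w : Ω) ≤ 1 := v_natCast_le v w
  have hredw : Red v (w : Ω) = Red v (τ π / π) ^ m := by
    rw [← Red_pow v hvθ.le, Red_eq_iff v hvw]
    · exact hcyc
    · rw [map_pow, hvθ, one_pow]
  rcases D.normal_form hg hα with ⟨β, n, hβ, hn, hpn⟩ | ⟨s, hs⟩
  · exfalso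
    have h1 := D.gen_conj hc hw (f' := fun g => (w : ZMod p) * f g) hf' hβ
    have h2 := D.gen_nsmul hβ w
    obtain ⟨γ, hγ, hγ0, h3⟩ := D.gen_ratio h2 h1
    obtain ⟨k, hk⟩ := D.disc γ hγ hγ0
    have h4 := congrArg v h3
    rw [hv, map_mul, map_pow, map_pow, hn, hk, ← zpow_natCast, ← zpow_natCast, ← zpow_mul,
      ← zpow_mul, ← zpow_add₀ D.π0, D.zpow_inj] at h4
    have h5 : (p : ℤ) ∣ n * ((w : ℤ) - 1) := ⟨-k, by linear_combination -h4⟩
    rcases (Nat.prime_iff_prime_int.mp D.hp).dvd_or_dvd h5 with h6 | h6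
    · exact hpn h6
    · have h7 : ((w : ℕ) : ZMod p) = ((1 : ℕ) : ZMod p) := by
        rw [ZMod.natCast_eq_natCast_iff]
        exact (Nat.modEq_iff_dvd.mpr (by
          obtain ⟨c, hc⟩ := h6
          exact ⟨-c, by push_cast; linear_combination -hc⟩))
      have h8 := D.red_natCast_eq h7
      have h9 : Red v (τ π / π) ^ m = Red v (τ π / π) ^ 0 := by
        rw [← hredw, pow_zero, ← red_one v, Red_eq_iff v hvw (by rw [map_one])]
        rw [Nat.cast_one] at h8; exact h8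
      obtain ⟨c, hc⟩ := D.dvd_sub_of_pow_eq hv hord h9
      have h10 : (p - 1) * m ∣ m := by
        rw [← Int.natCast_dvd_natCast]; exact ⟨c, by rw [← hc]; push_cast; ring⟩
      have h11 := Nat.le_of_dvd hm h10
      have h12 : 2 * m ≤ (p - 1) * m := Nat.mul_le_mul_right m (by omega)
      omega
  · have hs0 := hs.1
    have hsm := hs.2.1
    have hps := hs.2.2.1
    obtain ⟨ξ, hξ, hξ2⟩ := D.exists_hasLC_of_break hs
    have h1 := D.hasLC_conj hc hv hw (f' := fun g => (w : ZMod p) * f g) hf' hξ2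
    have h2 := D.hasLC_nsmul hs0 hξ.le hξ2 w
    have hvt : v ((τ π / π) ^ s * τ ξ) ≤ 1 := by
      rw [map_mul, map_pow, hvθ, hv, hξ, one_pow, one_mul]
    have hvwξ : v ((w : Ω) * ξ) ≤ 1 := by
      rw [map_mul, hξ, mul_one]; exact hvw
    have h3 := D.lc_unique hs0 hsm hps hvt hvwξ h1 h2
    rw [← Red_eq_iff v hvt hvwξ, Red_mul v (by rw [map_pow, hvθ, one_pow]) (by rw [hv, hξ]),
      Red_mul v hvw hξ.le, D.unit_ratio htriv hξ.le, Red_pow v hvθ.le, hredw] at h3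
    have hξne : Red v ξ ≠ 0 := by
      rw [Ne, Red_eq_zero_iff v hξ.le, hξ]; exact lt_irrefl _
    have h4 := mul_right_cancel₀ hξne h3
    obtain ⟨k, hk⟩ := D.dvd_sub_of_pow_eq hv hord h4
    obtain ⟨r, rfl⟩ : ∃ r, p = r + 3 := ⟨p - 3, by omega⟩
    have hsm' : (s : ℤ) = m := by
      have e1 : (((r + 3 - 1) * m : ℕ) : ℤ) = ((r : ℤ) + 2) * m := by
        push_cast [show r + 3 - 1 = r + 2 by omega]; ring
      rw [e1] at hk
      have hmz : (0 : ℤ) < m := by exact_mod_cast hm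
      have hr : (0 : ℤ) ≤ r := by positivity
      have hsz : (0 : ℤ) < s := by exact_mod_cast hs0
      have hsm2 : (s : ℤ) < ((r : ℤ) + 3) * m := by exact_mod_cast hsm
      have hk0 : k = 0 := by
        rcases lt_trichotomy k 0 with h | h | h
        · have : k ≤ -1 := by omega
          nlinarith [mul_nonneg hr hmz.le]
        · exact h
        · have : 1 ≤ k := by omega
          nlinarith [mul_nonneg hr hmz.le]
      rw [hk0, mul_zero] at hk
      linarith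
    have : s = m := by exact_mod_cast hsm'
    subst this
    exact hs

/-- (T1) Groups of characters fixed by tame inertia and of a given Frobenius eigenvalue have at
most `p` elements. -/
theorem card_fixed_le [IsAlgClosed Ω] (D : Data v G p m π ζ) (hp3 : 3 ≤ p)
    {τ : Ω ≃+* Ω} {c : G ≃ G} (hc : ∀ (g : G) (x : Ω), τ (g • x) = c g • τ x)
    (hv : ∀ x : Ω, v (τ x) = v x)
    (htriv : ∀ x : Ω, v x ≤ 1 → v (τ x - x) < 1)
    (hord : ∀ n : ℕ, v ((τ π / π) ^ n - 1) < 1 → (p - 1) * m ∣ n)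
    {φ : Ω ≃+* Ω} {d : G ≃ G} (hd : ∀ (g : G) (x : Ω), φ (g • x) = d g • φ x)
    (hvφ : ∀ x : Ω, v (φ x) = v x)
    {q : ℕ} (hq : 1 < q) (hφ : ∀ x : Ω, v x ≤ 1 → v (φ x - x ^ q) < 1) (ε : ZMod p) (hε : ε ≠ 0)
    (W : Finset (G → ZMod p)) (hsub : ∀ f ∈ W, ∀ f' ∈ W, (fun g => f g - f' g) ∈ W)
    (hgen : ∀ f ∈ W, ∃ α : Ω, IsGen G ζ f α)
    (hWτ : ∀ f ∈ W, ∀ g, f (c g) = f g)
    (hWφ : ∀ f ∈ W, ∀ g, f (d g) = ε * f g) : W.card ≤ q := by
  have : Fact p.Prime := ⟨D.hp⟩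
  obtain ⟨w, hw⟩ := D.exists_w φ
  have hvη := D.v_theta hvφ
  let b : ZMod p := w * ε⁻¹
  have hηm : v ((φ π / π) ^ m) = 1 := by rw [map_pow, hvη, one_pow]
  have hηm0 : (φ π / π) ^ m ≠ 0 := by
    intro h0; rw [h0, map_zero] at hηm; exact zero_ne_one hηm
  have hC : v ((b.val : Ω) / (φ π / π) ^ m) ≤ 1 := by
    rw [map_div₀, hηm, div_one]; exact v_natCast_le v _
  have hpm : m < p * m := by
    have := D.hm
    calc m = 1 * m := (one_mul m).symm
      _ < p * m := Nat.mul_lt_mul_of_pos_right (by omega) this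
  refine D.card_le (s := m) hq hC W hsub ?_ ?_
  · intro f hf hne
    exact D.break_of_fixed hp3 hc hv htriv hord hne (hgen f hf) (hWτ f hf)
  · intro f hf hne ξ hξ hlc
    have hb := D.break_of_fixed hp3 hc hv htriv hord hne (hgen f hf) (hWτ f hf)
    have hf' : ∀ g : G, (fun g => ((b.val : ℕ) : ZMod p) * f g) (d g) =
        w * f g := by
      intro g
      simp only [hWφ f hf, b, ZMod.natCast_val, ZMod.cast_id]
      field_simp
    have h1 := D.hasLC_conj hd hvφ hw (f' := fun g => ((b.val : ℕ) : ZMod p) * f g) hf' hlc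
    have h2 := D.hasLC_nsmul D.hm hξ hlc b.val
    have hvt : v ((φ π / π) ^ m * φ ξ) ≤ 1 := by
      rw [map_mul, hηm, hvφ, one_mul]; exact hξ
    have hvc : v ((b.val : Ω) * ξ) ≤ 1 := by
      rw [map_mul]; exact mul_le_one₀ (v_natCast_le v _) zero_le hξ
    have h3 := D.lc_unique D.hm hpm hb.2.2.1 hvt hvc h1 h2
    have h4 : ξ ^ q - (b.val : Ω) / (φ π / π) ^ m * ξ =
        -(φ ξ - ξ ^ q) + ((φ π / π) ^ m * φ ξ - b.val * ξ) / (φ π / π) ^ m := by
      rw [sub_div, mul_div_cancel_left₀ _ hηm0]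
      ring
    rw [h4]
    refine (v.map_add _ _).trans_lt (max_lt ?_ ?_)
    · rw [Valuation.map_neg]; exact hφ ξ hξ
    · rw [map_div₀, hηm, div_one]; exact h3

/-- Break of a character satisfying the quadratic relation of `ω₂^{±(p-1)}`. -/
theorem break_of_quad (D : Data v G p (p + 1) π ζ) (hp3 : 3 ≤ p)
    {τ : Ω ≃+* Ω} {c : G ≃ G} (hc : ∀ (g : G) (x : Ω), τ (g • x) = c g • τ x)
    (hv : ∀ x : Ω, v (τ x) = v x) (htriv : ∀ x : Ω, v x ≤ 1 → v (τ x - x) < 1)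
    (hord : ∀ n : ℕ, v ((τ π / π) ^ n - 1) < 1 → (p - 1) * (p + 1) ∣ n)
    (a : ℕ) (ha : v (((τ π / π) ^ (p - 1)) ^ 2 - a * (τ π / π) ^ (p - 1) + 1) < 1)
    {f : G → ZMod p}
    (hfτ : ∀ g, f (c (c g)) + f g =
      a * f (c g)) {s : ℕ} (hs : BreakPos v G (p + 1) π ζ s f) (hs3 : 3 ≤ s) :
    s = p ^ 2 + 1 := by
  have : Fact p.Prime := ⟨D.hp⟩
  obtain ⟨w, hw⟩ := D.exists_w τ
  have hcyc := D.cyc_eq_theta hv htriv hw
  have hvθ := D.v_theta hv
  have hvw : v (w : Ω) ≤ 1 := v_natCast_le v w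
  have hredw : Red v (w : Ω) = Red v (τ π / π) ^ (p + 1) := by
    rw [← Red_pow v hvθ.le, Red_eq_iff v hvw]
    · exact hcyc
    · rw [map_pow, hvθ, one_pow]
  have hs0 := hs.1
  have hsm := hs.2.1
  have hps := hs.2.2.1
  obtain ⟨ξ, hξ, hξ2⟩ := D.exists_hasLC_of_break hs
  -- `f₁ = f ∘ c⁻¹`, `f₂ = f ∘ c⁻²`
  let t : Ω := τ π / π
  have h1 : HasLC v G π ζ s (fun g => (w : ZMod p) * f (c.symm g)) (t ^ s * τ ξ) :=
    D.hasLC_conj hc hv hw (fun g => by rw [Equiv.symm_apply_apply]) hξ2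
  have hv1 : v (t ^ s * τ ξ) = 1 := by
    rw [map_mul, map_pow, hvθ, hv, hξ, one_pow, one_mul]
  have h2 : HasLC v G π ζ s (fun g => (w : ZMod p) * ((w : ZMod p) * f (c.symm (c.symm g))))
      (t ^ s * τ (t ^ s * τ ξ)) :=
    D.hasLC_conj hc hv hw (fun g => by rw [Equiv.symm_apply_apply]) h1
  have hv2 : v (t ^ s * τ (t ^ s * τ ξ)) = 1 := by
    rw [map_mul, map_pow, hvθ, hv, hv1, one_pow, one_mul]
  -- combination `w² f₂ + w² f₀ - a w (w f₁) = 0`
  let b : ℕ := (-(a : ZMod p) * w).val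
  have hvb : v (b : Ω) ≤ 1 := v_natCast_le v b
  have h3 := D.hasLC_nsmul hs0 hξ.le hξ2 (w * w)
  have hv3 : v (((w * w : ℕ) : Ω) * ξ) ≤ 1 := by
    rw [map_mul, hξ, mul_one]; exact v_natCast_le v _
  have h4 := D.hasLC_nsmul hs0 hv1.le h1 b
  have hv4 : v ((b : Ω) * (t ^ s * τ ξ)) ≤ 1 := by
    rw [map_mul, hv1, mul_one]; exact hvb
  have h5 := D.hasLC_add hs0 hv2.le hv3 h2 h3
  have hv5 := (v.map_add (t ^ s * τ (t ^ s * τ ξ)) (((w * w : ℕ) : Ω) * ξ)).trans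
    (max_le hv2.le hv3)
  have h6 := D.hasLC_add hs0 hv5 hv4 h5 h4
  have hv6 := (v.map_add _ _).trans (max_le hv5 hv4)
  have h7 := D.lc_zero hsm hps (fun g => by
    have h8 := hfτ (c.symm (c.symm g))
    have h9 : c (c.symm (c.symm g)) = c.symm g := Equiv.apply_symm_apply _ _
    have h10 : c (c.symm g) = g := Equiv.apply_symm_apply _ _
    change f (c (c (c.symm (c.symm g)))) + f (c.symm (c.symm g)) =
      a * f (c (c.symm (c.symm g))) at h8
    rw [h9, h10] at h8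
    simp only [b, ZMod.natCast_val, ZMod.cast_id]
    push_cast
    linear_combination (w : ZMod p) * w * h8) hv6 h6
  rw [← Red_eq_zero_iff v hv6, Red_add v hv5 hv4, Red_add v hv2.le hv3,
    Red_mul v (by rw [map_pow, hvθ, one_pow]) (by rw [hv, hv1]),
    D.unit_ratio htriv hv1.le, Red_mul v (v_natCast_le v _) hξ.le,
    Red_mul v hvb hv1.le, Red_mul v (by rw [map_pow, hvθ, one_pow]) (by rw [hv, hξ]),
    D.unit_ratio htriv hξ.le, Red_pow v hvθ.le] at h7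
  have hξne : Red v ξ ≠ 0 := by
    rw [Ne, Red_eq_zero_iff v hξ.le, hξ]; exact lt_irrefl _
  have hTne : Red v t ≠ 0 := D.red_theta_ne_zero hv
  have hww : Red v ((w * w : ℕ) : Ω) = Red v t ^ (p + 1) * Red v t ^ (p + 1) := by
    rw [Nat.cast_mul, Red_mul v hvw hvw, hredw]
  have hbaw : Red v (b : Ω) = -(Red v (a : Ω) * Red v t ^ (p + 1)) := by
    have hva : v (a : Ω) ≤ 1 := v_natCast_le v a
    have e1 : ((b + a * w : ℕ) : ZMod p) = ((0 : ℕ) : ZMod p) := by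
      simp only [b]; push_cast; rw [ZMod.natCast_val, ZMod.cast_id]; ring
    have e2 := D.red_natCast_eq e1
    have hv0 : v (0 : Ω) ≤ 1 := by rw [map_zero]; exact zero_le
    have hred0 : Red v (0 : Ω) = 0 := (Red_eq_zero_iff v hv0).mpr (by
      rw [map_zero]; exact zero_lt_one)
    rw [← Red_eq_iff v (v_natCast_le v _) (v_natCast_le v _), Nat.cast_zero, Nat.cast_add,
      Nat.cast_mul, Red_add v hvb (by rw [map_mul]; exact mul_le_one₀ hva zero_le hvw),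
      Red_mul v hva hvw, hredw, hred0] at e2
    exact eq_neg_of_add_eq_zero_left e2
  rw [hww, hbaw] at h7
  have hvtp : v (t ^ (p - 1)) ≤ 1 := by rw [map_pow, hvθ, one_pow]
  have hvtp2 : v ((t ^ (p - 1)) ^ 2) ≤ 1 := by rw [map_pow]; exact pow_le_one₀ zero_le hvtp
  have hva : v (a : Ω) ≤ 1 := v_natCast_le v a
  have hvat : v ((a : Ω) * t ^ (p - 1)) ≤ 1 := by
    rw [map_mul]; exact mul_le_one₀ hva zero_le hvtp
  have hE2 : (Red v t ^ (p - 1)) ^ 2 - Red v (a : Ω) * Red v t ^ (p - 1) + 1 = 0 := by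
    have hv1' : v ((t ^ (p - 1)) ^ 2 - (a : Ω) * t ^ (p - 1)) ≤ 1 :=
      (v.map_sub _ _).trans (max_le hvtp2 hvat)
    rw [← Red_eq_zero_iff v ((v.map_add _ _).trans (max_le hv1' (by rw [map_one]))),
      Red_add v hv1' (by rw [map_one]), Red_sub v hvtp2 hvat, Red_pow v hvtp,
      Red_mul v hva hvtp, Red_pow v hvθ.le, red_one] at ha
    exact ha
  generalize hT : Red v t = T at h7 hE2 hTne
  generalize hX : Red v ξ = X at h7 hξne
  generalize Red v (a : Ω) = A at h7 hE2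
  have hE1 : T ^ s * T ^ s + T ^ (p + 1) * T ^ (p + 1) - A * T ^ (p + 1) * T ^ s = 0 := by
    have : (T ^ s * T ^ s + T ^ (p + 1) * T ^ (p + 1) - A * T ^ (p + 1) * T ^ s) * X = 0 := by
      linear_combination h7
    exact (mul_eq_zero.mp this).resolve_right hξne
  have hfac : (T ^ s - T ^ (2 * p)) * (T ^ (s + (p - 1)) - T ^ (p + 1)) = 0 := by
    obtain ⟨r, rfl⟩ : ∃ r, p = r + 1 := ⟨p - 1, by omega⟩
    rw [Nat.add_sub_cancel] at hE2 ⊢
    linear_combination T ^ r * hE1 - T ^ (s + r + 2) * hE2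
  have hcases : ∃ k : ℤ, (s : ℤ) - 2 * p = ((p : ℤ) ^ 2 - 1) * k ∨
      (s : ℤ) - 2 = ((p : ℤ) ^ 2 - 1) * k := by
    have e1 : (((p - 1) * (p + 1) : ℕ) : ℤ) = (p : ℤ) ^ 2 - 1 := by
      rw [Nat.cast_mul, Nat.cast_sub D.hp.pos]; push_cast; ring
    rcases mul_eq_zero.mp hfac with h8 | h8
    · have h9 := sub_eq_zero.mp h8
      rw [← hT] at h9
      obtain ⟨k, hk⟩ := D.dvd_sub_of_pow_eq hv hord h9
      rw [e1] at hk
      exact ⟨k, Or.inl (by rw [← hk]; push_cast; ring)⟩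
    · have h9 := sub_eq_zero.mp h8
      rw [← hT] at h9
      obtain ⟨k, hk⟩ := D.dvd_sub_of_pow_eq hv hord h9
      rw [e1] at hk
      refine ⟨k, Or.inr ?_⟩
      rw [← hk, Nat.cast_add, Nat.cast_sub D.hp.pos]; push_cast; ring
  have hp3z : (3 : ℤ) ≤ p := by exact_mod_cast hp3
  have hs3z : (3 : ℤ) ≤ s := by exact_mod_cast hs3
  have hsmz : (s : ℤ) < p * (p + 1) := by exact_mod_cast hsm
  obtain ⟨k, hk | hk⟩ := hcases
  · exfalso
    rw [arith_one hp3z hs3z hsmz hk, mul_zero] at hk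
    exact hps ⟨2, by have : (s : ℤ) = p * 2 := by linarith
                     exact_mod_cast this⟩
  · rw [arith_two hp3z hs3z hsmz hk, mul_one] at hk
    have : (s : ℤ) = ((p ^ 2 + 1 : ℕ) : ℤ) := by push_cast; linarith
    exact_mod_cast this

/-- (T2) Groups of characters satisfying the quadratic relation, with all breaks `≥ 3` and of a
given eigenvalue for the square of Frobenius, have at most `p²` elements. -/
theorem card_quad_le (D : Data v G p (p + 1) π ζ) (hp3 : 3 ≤ p)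
    {τ : Ω ≃+* Ω} {c : G ≃ G} (hc : ∀ (g : G) (x : Ω), τ (g • x) = c g • τ x)
    (hv : ∀ x : Ω, v (τ x) = v x)
    (htriv : ∀ x : Ω, v x ≤ 1 → v (τ x - x) < 1)
    (hord : ∀ n : ℕ, v ((τ π / π) ^ n - 1) < 1 → (p - 1) * (p + 1) ∣ n)
    (a : ℕ) (ha : v (((τ π / π) ^ (p - 1)) ^ 2 - a * (τ π / π) ^ (p - 1) + 1) < 1)
    {Φ : Ω ≃+* Ω} {d : G ≃ G} (hd : ∀ (g : G) (x : Ω), Φ (g • x) = d g • Φ x)
    (hvΦ : ∀ x : Ω, v (Φ x) = v x)
    {q : ℕ} (hq : 1 < q) (hΦ : ∀ x : Ω, v x ≤ 1 → v (Φ x - x ^ q) < 1) (ε : ZMod p)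
    (hε : ε ≠ 0)
    (W : Finset (G → ZMod p)) (hsub : ∀ f ∈ W, ∀ f' ∈ W, (fun g => f g - f' g) ∈ W)
    (hb : ∀ f ∈ W, (∃ g, f g ≠ 0) → ∃ s, 3 ≤ s ∧ BreakPos v G (p + 1) π ζ s f)
    (hWτ : ∀ f ∈ W, ∀ g, f (c (c g)) + f g =
      a * f (c g))
    (hWφ : ∀ f ∈ W, ∀ g, f (d g) = ε * f g) : W.card ≤ q := by
  have : Fact p.Prime := ⟨D.hp⟩
  obtain ⟨w, hw⟩ := D.exists_w Φ
  have hvη := D.v_theta hvΦ
  let b : ZMod p := w * ε⁻¹
  let m := p ^ 2 + 1
  have hηm : v ((Φ π / π) ^ m) = 1 := by rw [map_pow, hvη, one_pow]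
  have hηm0 : (Φ π / π) ^ m ≠ 0 := by
    intro h0; rw [h0, map_zero] at hηm; exact zero_ne_one hηm
  have hC : v ((b.val : Ω) / (Φ π / π) ^ m) ≤ 1 := by
    rw [map_div₀, hηm, div_one]; exact v_natCast_le v _
  have hbm : ∀ f ∈ W, (∃ g, f g ≠ 0) → BreakPos v G (p + 1) π ζ m f := by
    intro f hf hne
    obtain ⟨s, hs3, hs⟩ := hb f hf hne
    have := D.break_of_quad hp3 hc hv htriv hord a ha (hWτ f hf) hs hs3
    rwa [this] at hs
  refine D.card_le (s := m) hq hC W hsub hbm ?_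
  intro f hf hne ξ hξ hlc
  have hb := hbm f hf hne
  have hf' : ∀ g : G, (fun g => ((b.val : ℕ) : ZMod p) * f g) (d g) =
      w * f g := by
    intro g
    simp only [hWφ f hf, b, ZMod.natCast_val, ZMod.cast_id]
    field_simp
  have h1 := D.hasLC_conj hd hvΦ hw (f' := fun g => ((b.val : ℕ) : ZMod p) * f g) hf' hlc
  have h2 := D.hasLC_nsmul hb.1 hξ hlc b.val
  have hvt : v ((Φ π / π) ^ m * Φ ξ) ≤ 1 := by
    rw [map_mul, hηm, hvΦ, one_mul]; exact hξ
  have hvc : v ((b.val : Ω) * ξ) ≤ 1 := by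
    rw [map_mul]; exact mul_le_one₀ (v_natCast_le v _) zero_le hξ
  have h3 := D.lc_unique hb.1 hb.2.1 hb.2.2.1 hvt hvc h1 h2
  have h4 : ξ ^ q - (b.val : Ω) / (Φ π / π) ^ m * ξ =
      -(Φ ξ - ξ ^ q) + ((Φ π / π) ^ m * Φ ξ - b.val * ξ) / (Φ π / π) ^ m := by
    rw [sub_div, mul_div_cancel_left₀ _ hηm0]
    ring
  rw [h4]
  refine (v.map_add _ _).trans_lt (max_lt ?_ ?_)
  · rw [Valuation.map_neg]; exact hΦ ξ hξ
  · rw [map_div₀, hηm, div_one]; exact h3

end Data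

end Fermat.Agent.TWP.Flat.Kummer
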