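import Mathlib
import Fermat.Agent.TWP.Flat.KummerCount

/-!
# The leading coefficient as a function to the residue field
-/

set_option autoImplicit false
set_option linter.unusedVariables false
set_option linter.unusedSectionVars false

namespace Fermat.Agent.TWP.Flat.Kummer

variable {Ω : Type} [Field Ω] {Γ : Type} [LinearOrderedCommGroupWithZero Γ]
  {v : Valuation Ω Γ} {G : Type} [Group G] [MulSemiringAction G Ω]
  {p m : ℕ} {π ζ : Ω}

/-- The leading coefficient (junk value `0` if there is no generator in `U^s`). -/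
noncomputable def lc (v : Valuation Ω Γ) (G : Type) [Group G] [MulSemiringAction G Ω] (π ζ : Ω)
    (s : ℕ) (f : G → ZMod p) : IsLocalRing.ResidueField v.valuationSubring :=
  open Classical in
  if h : ∃ ξ : Ω, v ξ ≤ 1 ∧ HasLC v G π ζ s f ξ then Red v h.choose else 0

namespace Data

theorem lc_eq (D : Data v G p m π ζ) {s : ℕ} (hs0 : 0 < s) (hs : s < p * m)
    (hps : ¬ p ∣ s) {f : G → ZMod p} {ξ : Ω} (hξ : v ξ ≤ 1) (h : HasLC v G π ζ s f ξ) :
    lc v G π ζ s f = Red v ξ := by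
  have hex : ∃ ξ : Ω, v ξ ≤ 1 ∧ HasLC v G π ζ s f ξ := ⟨ξ, hξ, h⟩
  have h1 : lc v G π ζ s f = Red v hex.choose := by
    unfold lc; rw [dif_pos hex]
  rw [h1, Red_eq_iff v hex.choose_spec.1 hξ]
  exact D.lc_unique hs0 hs hps hex.choose_spec.1 hξ hex.choose_spec.2 h

theorem U_zero (D : Data v G p m π ζ) (s : ℕ) : U v G π ζ s (fun _ : G => (0 : ZMod p)) :=
  ⟨1, D.gen_zero, by rw [sub_self, map_zero]; exact zero_le⟩

theorem U_add (D : Data v G p m π ζ) {s : ℕ} (hs0 : 0 < s) {f f' : G → ZMod p}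
    (h : U v G π ζ s f) (h' : U v G π ζ s f') : U v G π ζ s (fun g => f g + f' g) := by
  obtain ⟨ξ, hξ, h1⟩ := D.exists_hasLC h
  obtain ⟨ξ', hξ', h1'⟩ := D.exists_hasLC h'
  exact D.U_of_hasLC ((v.map_add _ _).trans (max_le hξ hξ')) (D.hasLC_add hs0 hξ hξ' h1 h1')

theorem U_nsmul (D : Data v G p m π ζ) {s : ℕ} (hs0 : 0 < s) {f : G → ZMod p}
    (h : U v G π ζ s f) (n : ℕ) : U v G π ζ s (fun g => (n : ZMod p) * f g) := by
  obtain ⟨ξ, hξ, h1⟩ := D.exists_hasLC h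
  exact D.U_of_hasLC (by rw [map_mul]; exact mul_le_one₀ (v_natCast_le v _) zero_le hξ)
    (D.hasLC_nsmul hs0 hξ h1 n)

theorem U_smul (D : Data v G p m π ζ) {s : ℕ} (hs0 : 0 < s) {f : G → ZMod p}
    (h : U v G π ζ s f) (a : ZMod p) : U v G π ζ s (fun g => a * f g) := by
  have : NeZero p := ⟨D.hp.ne_zero⟩
  have h1 := D.U_nsmul hs0 h a.val
  simpa using h1

theorem U_neg (D : Data v G p m π ζ) {s : ℕ} (hs0 : 0 < s) {f : G → ZMod p}
    (h : U v G π ζ s f) : U v G π ζ s (fun g => - f g) := by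
  have h1 := D.U_smul hs0 h (-1)
  simpa using h1

theorem U_sub (D : Data v G p m π ζ) {s : ℕ} (hs0 : 0 < s) {f f' : G → ZMod p}
    (h : U v G π ζ s f) (h' : U v G π ζ s f') : U v G π ζ s (fun g => f g - f' g) := by
  have h1 := D.U_add hs0 h (D.U_neg hs0 h')
  simpa only [sub_eq_add_neg] using h1

theorem lc_add (D : Data v G p m π ζ) {s : ℕ} (hs0 : 0 < s) (hs : s < p * m)
    (hps : ¬ p ∣ s) {f f' : G → ZMod p} (h : U v G π ζ s f) (h' : U v G π ζ s f') :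
    lc v G π ζ s (fun g => f g + f' g) = lc v G π ζ s f + lc v G π ζ s f' := by
  obtain ⟨ξ, hξ, h1⟩ := D.exists_hasLC h
  obtain ⟨ξ', hξ', h1'⟩ := D.exists_hasLC h'
  rw [D.lc_eq hs0 hs hps hξ h1, D.lc_eq hs0 hs hps hξ' h1', ← Red_add v hξ hξ']
  exact D.lc_eq hs0 hs hps ((v.map_add _ _).trans (max_le hξ hξ')) (D.hasLC_add hs0 hξ hξ' h1 h1')

theorem lc_nsmul (D : Data v G p m π ζ) {s : ℕ} (hs0 : 0 < s) (hs : s < p * m)
    (hps : ¬ p ∣ s) {f : G → ZMod p} (h : U v G π ζ s f) (n : ℕ) :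
    lc v G π ζ s (fun g => (n : ZMod p) * f g) = Red v (n : Ω) * lc v G π ζ s f := by
  obtain ⟨ξ, hξ, h1⟩ := D.exists_hasLC h
  rw [D.lc_eq hs0 hs hps hξ h1, ← Red_mul v (v_natCast_le v _) hξ]
  exact D.lc_eq hs0 hs hps (by rw [map_mul]; exact mul_le_one₀ (v_natCast_le v _) zero_le hξ)
    (D.hasLC_nsmul hs0 hξ h1 n)

theorem lc_eq_zero_iff (D : Data v G p m π ζ) {s : ℕ} (hs0 : 0 < s) (hs : s < p * m)
    (hps : ¬ p ∣ s) {f : G → ZMod p} (h : U v G π ζ s f) :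
    lc v G π ζ s f = 0 ↔ U v G π ζ (s + 1) f := by
  obtain ⟨ξ, hξ, h1⟩ := D.exists_hasLC h
  rw [D.lc_eq hs0 hs hps hξ h1, Red_eq_zero_iff v hξ]
  constructor
  · intro h2; exact D.U_succ_of_hasLC h2 h1
  · intro h2
    obtain ⟨α, h3, h4⟩ := h2
    have h5 : HasLC v G π ζ s f 0 := by
      refine ⟨α, h3, ?_⟩
      rw [mul_zero, sub_zero]
      exact h4.trans_lt (D.pow_lt.mpr (Nat.lt_succ_self s))
    have h6 := D.lc_unique hs0 hs hps hξ (by rw [map_zero]; exact zero_le) h1 h5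
    rwa [sub_zero] at h6

/-- Two generators in `U^s` of the same character agree modulo `π^{s+1}`. -/
theorem gen_sub_lt (D : Data v G p m π ζ) {s : ℕ} (hs0 : 0 < s) (hs : s < p * m)
    (hps : ¬ p ∣ s) {f : G → ZMod p} {α α' : Ω} (h : IsGen G ζ f α) (h' : IsGen G ζ f α')
    (hα : v (α - 1) ≤ v π ^ s) (hα' : v (α' - 1) ≤ v π ^ s) : v (α - α') < v π ^ s := by
  have hπ : π ^ s ≠ 0 := pow_ne_zero _ D.π_ne
  have key : ∀ {α : Ω}, IsGen G ζ f α → v (α - 1) ≤ v π ^ s →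
      v ((α - 1) / π ^ s) ≤ 1 ∧ HasLC v G π ζ s f ((α - 1) / π ^ s) := by
    intro α h1 h2
    refine ⟨?_, α, h1, ?_⟩
    · rw [map_div₀, map_pow]
      exact div_le_one_of_le₀ h2 zero_le
    · rw [mul_div_cancel₀ _ hπ, sub_self, map_zero]
      exact pow_pos D.vpos _
  obtain ⟨h1, h2⟩ := key h hα
  obtain ⟨h1', h2'⟩ := key h' hα'
  have h3 := D.lc_unique hs0 hs hps h1 h1' h2 h2'
  have h4 : α - α' = ((α - 1) / π ^ s - (α' - 1) / π ^ s) * π ^ s := by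
    rw [sub_mul, div_mul_cancel₀ _ hπ, div_mul_cancel₀ _ hπ]; ring
  rw [h4, map_mul, map_pow]
  exact mul_lt_of_lt_one_left (pow_pos D.vpos _) h3

theorem U_conj (D : Data v G p m π ζ) {τ : Ω ≃+* Ω} {c : G ≃ G}
    (hc : ∀ (g : G) (x : Ω), τ (g • x) = c g • τ x) (hv : ∀ x : Ω, v (τ x) = v x)
    {w : ℕ} (hw : τ ζ = ζ ^ w) {f f' : G → ZMod p} (hf' : ∀ g : G, f' (c g) = w * f g) {s : ℕ}
    (h : U v G π ζ s f) : U v G π ζ s f' := by
  obtain ⟨α, h1, h2⟩ := h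
  refine ⟨τ α, D.gen_conj hc hw hf' h1, ?_⟩
  rw [← map_one τ, ← map_sub, hv]
  exact h2

/-- Transport of leading coefficients; `q = 1` for inertia, `q` a power of `p` for Frobenius
elements. -/
theorem lc_conj (D : Data v G p m π ζ) {τ : Ω ≃+* Ω} {c : G ≃ G}
    (hc : ∀ (g : G) (x : Ω), τ (g • x) = c g • τ x) (hv : ∀ x : Ω, v (τ x) = v x)
    {w : ℕ} (hw : τ ζ = ζ ^ w) {f f' : G → ZMod p} (hf' : ∀ g : G, f' (c g) = w * f g)
    {q : ℕ} (hτ : ∀ x : Ω, v x ≤ 1 → v (τ x - x ^ q) < 1)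
    {s : ℕ} (hs0 : 0 < s) (hs : s < p * m) (hps : ¬ p ∣ s) (h : U v G π ζ s f) :
    lc v G π ζ s f' = Red v (τ π / π) ^ s * lc v G π ζ s f ^ q := by
  obtain ⟨ξ, hξ, h1⟩ := D.exists_hasLC h
  have hvθ := D.v_theta hv
  have hvτξ : v (τ ξ) ≤ 1 := by rw [hv]; exact hξ
  have hvθs : v ((τ π / π) ^ s) ≤ 1 := by rw [map_pow, hvθ, one_pow]
  have h2 := D.hasLC_conj hc hv hw hf' h1
  have hv2 : v ((τ π / π) ^ s * τ ξ) ≤ 1 := by
    rw [map_mul]; exact mul_le_one₀ hvθs zero_le hvτξ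
  have hξq : v (ξ ^ q) ≤ 1 := by rw [map_pow]; exact pow_le_one₀ zero_le hξ
  have h3 : Red v (τ ξ) = Red v ξ ^ q := by
    rw [← Red_pow v hξ, Red_eq_iff v hvτξ hξq]; exact hτ ξ hξ
  rw [D.lc_eq hs0 hs hps hv2 h2, D.lc_eq hs0 hs hps hξ h1, Red_mul v hvθs hvτξ,
    Red_pow v hvθ.le, h3]

/-- Vanishing principle: for `p ∤ s`, a character with a generator in `U^s` and zero leading
coefficient improves; iterating over the multiples of `p`. -/
theorem U_of_forall_lc [IsAlgClosed Ω] (D : Data v G p m π ζ) {f : G → ZMod p} (k : ℕ) :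
    ∀ s : ℕ, 0 < s → s + k ≤ p * m → U v G π ζ s f →
      (∀ r, s ≤ r → r < s + k → ¬ p ∣ r → U v G π ζ r f → lc v G π ζ r f = 0) →
      U v G π ζ (s + k) f := by
  induction k with
  | zero => intro s _ _ h _; exact h
  | succ k ih =>
    intro s hs0 hs h hlc
    have h1 : U v G π ζ (s + 1) f := by
      by_cases hps : p ∣ s
      · exact D.U_succ_of_dvd hs0 (by omega) hps h
      · exact (D.lc_eq_zero_iff hs0 (by omega) hps h).mp (hlc s le_rfl (by omega) hps h)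
    have h2 := ih (s + 1) (by omega) (by omega) h1 (fun r h3 h4 h5 h6 =>
      hlc r (by omega) (by omega) h5 h6)
    rwa [show s + 1 + k = s + (k + 1) by ring] at h2

/-- A character all of whose leading coefficients vanish is zero. -/
theorem eq_zero_of_forall_lc [IsAlgClosed Ω] (D : Data v G p m π ζ) {f : G → ZMod p} {s : ℕ}
    (hs0 : 0 < s) (hs : s ≤ p * m) (h : U v G π ζ s f)
    (hlc : ∀ r, s ≤ r → r < p * m → ¬ p ∣ r → U v G π ζ r f → lc v G π ζ r f = 0) (g : G) :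
    f g = 0 := by
  obtain ⟨k, hk⟩ := Nat.exists_eq_add_of_le hs
  refine D.eq_zero_of_U ?_ g
  rw [hk]
  exact D.U_of_forall_lc k s hs0 (by omega) h (fun r h1 h2 => hlc r h1 (by omega))

end Data

end Fermat.Agent.TWP.Flat.Kummer
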